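import Mathlib
import Fermat.Agent.FF3.Amice.Mul
import Fermat.Agent.FF3.Amice.Complete
import Fermat.Agent.FF3.Birkhoff.Mono

/-!
# FF3 / AmiceU : the splitting of the bounded Amice ring (L1-E, part 1)

On top of helper10's `BAmice K` (bounded two-sided series `∑ cₙ Xⁿ`, `cₙ → 0` at `-∞`, sup norm):

* `trunc P` : keep the coefficients with exponent in `P` (additive, norm `≤ 1`);
* `SuppIn c P`, `suppIn_mul` : supports of products;
* `split K : Split (BAmice K)` (constant term / `n > 0` part / `n < 0` part), `split_isMul`,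
  `split_isParam` (for the coordinate `X`);
* constants: `mem_B0_iff`, `isUnit0_algebraMap`.
-/

set_option autoImplicit false
set_option linter.unusedSectionVars false

namespace Fermat.Agent.FF3.AmiceU

open Filter Topology
open Fermat.Agent.FF3.Amice Fermat.Agent.FF3.Birkhoff
open scoped Classical

variable {K : Type*} [NormedField K] [IsUltrametricDist K] [CompleteSpace K]

/-- the coefficient sequence of an element is bounded by its norm -/
theorem bddAbove_trunc (P : ℤ → Prop) (c : BAmice K) :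
    BddAbove (Set.range fun n => ‖(if P n then BAmice.coeff n c else 0 : K)‖) := by
  refine ⟨‖c‖, ?_⟩
  rintro _ ⟨n, rfl⟩
  show ‖(if P n then BAmice.coeff n c else 0 : K)‖ ≤ ‖c‖
  split_ifs
  · exact BAmice.norm_coeff_le n c
  · rw [norm_zero]; exact norm_nonneg c

theorem tendsto_trunc (P : ℤ → Prop) (c : BAmice K) :
    Tendsto (fun n => (if P n then BAmice.coeff n c else 0 : K)) atBot (𝓝 0) := by
  refine squeeze_zero_norm (fun n => ?_) (tendsto_norm_zero.comp (BAmice.tendsto_coeff_atBot c))
  show ‖(if P n then BAmice.coeff n c else 0 : K)‖ ≤ ‖BAmice.coeff n c‖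
  split_ifs
  · exact le_rfl
  · rw [norm_zero]; exact norm_nonneg _

/-- keep the coefficients whose exponent satisfies `P` -/
noncomputable def truncFun (P : ℤ → Prop) (c : BAmice K) : BAmice K :=
  BAmice.mk (fun n => if P n then BAmice.coeff n c else 0) (bddAbove_trunc P c) (tendsto_trunc P c)

theorem coeff_truncFun (P : ℤ → Prop) (c : BAmice K) (n : ℤ) :
    BAmice.coeff n (truncFun P c) = if P n then BAmice.coeff n c else 0 :=
  BAmice.coeff_mk _ _ _ n

/-- keep the coefficients whose exponent satisfies `P`, as an additive map -/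
noncomputable def trunc (P : ℤ → Prop) : BAmice K →+ BAmice K where
  toFun := truncFun P
  map_zero' := by
    apply BAmice.ext; intro n
    rw [coeff_truncFun, map_zero]; split_ifs <;> rfl
  map_add' := fun c d => by
    apply BAmice.ext; intro n
    rw [map_add, coeff_truncFun, coeff_truncFun, coeff_truncFun, map_add]
    split_ifs <;> simp

@[simp] theorem coeff_trunc (P : ℤ → Prop) (c : BAmice K) (n : ℤ) :
    BAmice.coeff n (trunc P c) = if P n then BAmice.coeff n c else 0 :=
  coeff_truncFun P c n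

theorem norm_trunc_le (P : ℤ → Prop) (c : BAmice K) : ‖trunc P c‖ ≤ ‖c‖ := by
  rw [BAmice.norm_le_iff]
  intro n
  rw [coeff_trunc]
  split_ifs
  · exact BAmice.norm_coeff_le n c
  · rw [norm_zero]; exact norm_nonneg c

/-- `c` has all its exponents in `P` -/
def SuppIn (c : BAmice K) (P : ℤ → Prop) : Prop := ∀ n, ¬ P n → BAmice.coeff n c = 0

theorem suppIn_trunc (P : ℤ → Prop) (c : BAmice K) : SuppIn (trunc P c) P := by
  intro n hn
  rw [coeff_trunc, if_neg hn]

theorem trunc_eq_self_iff {P : ℤ → Prop} {c : BAmice K} : trunc P c = c ↔ SuppIn c P := by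
  constructor
  · intro h n hn
    rw [← h, coeff_trunc, if_neg hn]
  · intro h
    apply BAmice.ext; intro n
    rw [coeff_trunc]
    split_ifs with hn
    · rfl
    · exact (h n hn).symm

theorem trunc_eq_zero_of_suppIn {P Q : ℤ → Prop} {c : BAmice K} (hc : SuppIn c Q)
    (hPQ : ∀ n, P n → ¬ Q n) : trunc P c = 0 := by
  apply BAmice.ext; intro n
  rw [coeff_trunc, map_zero]
  split_ifs with hn
  · exact hc n (hPQ n hn)
  · rfl

theorem suppIn_mul {P Q R : ℤ → Prop} {c d : BAmice K} (hc : SuppIn c P) (hd : SuppIn d Q)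
    (hPQ : ∀ a b, P a → Q b → R (a + b)) : SuppIn (c * d) R := by
  intro n hn
  rw [BAmice.coeff_mul]
  have : (fun i : ℤ => BAmice.coeff i c * BAmice.coeff (n - i) d) = fun _ => 0 := by
    funext i
    by_cases hP : P i
    · by_cases hQ : Q (n - i)
      · exfalso
        apply hn
        have := hPQ _ _ hP hQ
        rwa [add_sub_cancel] at this
      · rw [hd _ hQ, mul_zero]
    · rw [hc _ hP, zero_mul]
  rw [this, tsum_zero]

theorem suppIn_one {P : ℤ → Prop} (h0 : P 0) : SuppIn (1 : BAmice K) P := by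
  intro n hn
  have : (1 : BAmice K) = algebraMap K (BAmice K) 1 := (map_one _).symm
  rw [this, BAmice.coeff_algebraMap, if_neg]
  rintro rfl
  exact hn h0

theorem suppIn_add {P : ℤ → Prop} {c d : BAmice K} (hc : SuppIn c P) (hd : SuppIn d P) :
    SuppIn (c + d) P := by
  intro n hn
  rw [map_add, hc n hn, hd n hn, add_zero]

/-! ### the splitting -/

/-- constant term -/
noncomputable def p0 : BAmice K →+ BAmice K := trunc (fun n => n = 0)
/-- part with positive exponents -/
noncomputable def pP : BAmice K →+ BAmice K := trunc (fun n => 0 < n)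
/-- part with negative exponents -/
noncomputable def pM : BAmice K →+ BAmice K := trunc (fun n => n < 0)

variable (K) in
/-- the splitting `BAmice K = K ⊕ (n > 0) ⊕ (n < 0)` -/
noncomputable def split : Split (BAmice K) where
  p0 := p0
  pP := pP
  pM := pM
  add_eq := fun c => by
    apply BAmice.ext; intro n
    simp only [map_add, p0, pP, pM, coeff_trunc]
    rcases lt_trichotomy n 0 with h | h | h
    · rw [if_neg h.ne, if_neg (not_lt.2 h.le), if_pos h]; simp
    · rw [if_pos h, if_neg (by rw [h]; exact lt_irrefl 0), if_neg (by rw [h]; exact lt_irrefl 0)]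
      simp
    · rw [if_neg h.ne', if_pos h, if_neg (not_lt.2 h.le)]; simp
  p0_pP := fun c => trunc_eq_zero_of_suppIn (suppIn_trunc _ c)
    (fun n h => by rw [h]; exact lt_irrefl 0)
  p0_pM := fun c => trunc_eq_zero_of_suppIn (suppIn_trunc _ c)
    (fun n h => by rw [h]; exact lt_irrefl 0)
  pP_p0 := fun c => trunc_eq_zero_of_suppIn (suppIn_trunc _ c) (fun _ h => h.ne')
  pP_pM := fun c => trunc_eq_zero_of_suppIn (suppIn_trunc _ c) (fun _ h => not_lt.2 h.le)
  pM_p0 := fun c => trunc_eq_zero_of_suppIn (suppIn_trunc _ c) (fun _ h => h.ne)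
  pM_pP := fun c => trunc_eq_zero_of_suppIn (suppIn_trunc _ c) (fun _ h => not_lt.2 h.le)
  norm_p0_le := norm_trunc_le _
  norm_pP_le := norm_trunc_le _
  norm_pM_le := norm_trunc_le _

theorem mem_B0_iff {c : BAmice K} : c ∈ (split K).B0 ↔ SuppIn c (fun n => n = 0) :=
  trunc_eq_self_iff
theorem mem_BP_iff {c : BAmice K} : c ∈ (split K).BP ↔ SuppIn c (fun n => 0 < n) :=
  trunc_eq_self_iff
theorem mem_BM_iff {c : BAmice K} : c ∈ (split K).BM ↔ SuppIn c (fun n => n < 0) :=
  trunc_eq_self_iff

theorem split_isMul : (split K).IsMul where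
  one_mem := mem_B0_iff.2 (suppIn_one rfl)
  mul_00 := fun hx hy => mem_B0_iff.2 (suppIn_mul (mem_B0_iff.1 hx) (mem_B0_iff.1 hy)
    (fun a b ha hb => by rw [ha, hb, add_zero]))
  mul_PP := fun hx hy => mem_BP_iff.2 (suppIn_mul (mem_BP_iff.1 hx) (mem_BP_iff.1 hy)
    (fun _ _ ha hb => add_pos ha hb))
  mul_MM := fun hx hy => mem_BM_iff.2 (suppIn_mul (mem_BM_iff.1 hx) (mem_BM_iff.1 hy)
    (fun _ _ ha hb => add_neg ha hb))
  mul_0P := fun hx hy => mem_BP_iff.2 (suppIn_mul (mem_B0_iff.1 hx) (mem_BP_iff.1 hy)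
    (fun a b ha hb => by rw [ha, zero_add]; exact hb))
  mul_0M := fun hx hy => mem_BM_iff.2 (suppIn_mul (mem_B0_iff.1 hx) (mem_BM_iff.1 hy)
    (fun a b ha hb => by rw [ha, zero_add]; exact hb))

/-- the constants are `B₀` -/
theorem algebraMap_mem_B0 (a : K) : algebraMap K (BAmice K) a ∈ (split K).B0 := by
  rw [mem_B0_iff]
  intro n hn
  rw [BAmice.coeff_algebraMap, if_neg hn]

theorem eq_algebraMap_of_mem_B0 {c : BAmice K} (hc : c ∈ (split K).B0) :
    c = algebraMap K (BAmice K) (BAmice.coeff 0 c) := by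
  apply BAmice.ext; intro n
  rw [BAmice.coeff_algebraMap]
  split_ifs with hn
  · rw [hn]
  · exact mem_B0_iff.1 hc n hn

theorem isUnit0_algebraMap {a : K} (ha : a ≠ 0) :
    (split K).IsUnit0 (algebraMap K (BAmice K) a) :=
  ⟨algebraMap_mem_B0 a, algebraMap K (BAmice K) a⁻¹, algebraMap_mem_B0 _, by
    rw [← map_mul, mul_inv_cancel₀ ha, map_one]⟩

/-- the coordinate `X` is a parameter for the splitting -/
theorem split_isParam : (split K).IsParam (BAmice.X : (BAmice K)ˣ) := by
  intro c hc n hn
  show p0 (c * ((BAmice.X ^ n : (BAmice K)ˣ) : BAmice K)) = 0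
  apply BAmice.ext; intro m
  rw [map_zero]
  show BAmice.coeff m (trunc _ _) = 0
  rw [coeff_trunc]
  split_ifs with hm
  · rw [hm, mul_comm, BAmice.coeff_X_zpow_mul]
    exact mem_B0_iff.1 hc _ (by simpa using hn)
  · rfl

end Fermat.Agent.FF3.AmiceU
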