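import Mathlib
import Fermat.Agent.FF3.AmiceU.Split

/-!
# FF3 / AmiceU : integral power series inside the Amice ring (L1-E, part 2)

* `ball R` : the closed unit ball of an ultrametric normed commutative ring, as a subring.
* `ofPS : PowerSeries (ball K) →+* BAmice K`, `coeff_ofPS`.
* `exists_inv_pos` : `1 + h` (`h` in the plus part, `‖h‖ ≤ 1`, NOT small) has an inverse `1 + z` with `z` in
  the plus part, `‖z‖ ≤ 1`.
-/

set_option autoImplicit false
set_option linter.unusedSectionVars false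

namespace Fermat.Agent.FF3.AmiceU

open Filter Topology
open Fermat.Agent.FF3.Amice Fermat.Agent.FF3.Birkhoff
open scoped Classical

/-- the closed unit ball of an ultrametric normed commutative ring with `‖1‖ = 1` -/
def ball (R : Type*) [NormedCommRing R] [IsUltrametricDist R] [NormOneClass R] : Subring R where
  carrier := {x | ‖x‖ ≤ 1}
  mul_mem' := fun {a b} (ha : ‖a‖ ≤ 1) (hb : ‖b‖ ≤ 1) =>
    show ‖a * b‖ ≤ 1 from (norm_mul_le a b).trans (mul_le_one₀ ha (norm_nonneg _) hb)
  one_mem' := show ‖(1 : R)‖ ≤ 1 from norm_one.le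
  add_mem' := fun {a b} (ha : ‖a‖ ≤ 1) (hb : ‖b‖ ≤ 1) =>
    show ‖a + b‖ ≤ 1 from (IsUltrametricDist.norm_add_le_max a b).trans (max_le ha hb)
  zero_mem' := show ‖(0 : R)‖ ≤ 1 by rw [norm_zero]; exact zero_le_one
  neg_mem' := fun {a} (ha : ‖a‖ ≤ 1) => show ‖-a‖ ≤ 1 by rwa [norm_neg]

theorem mem_ball {R : Type*} [NormedCommRing R] [IsUltrametricDist R] [NormOneClass R] {x : R} :
    x ∈ ball R ↔ ‖x‖ ≤ 1 := Iff.rfl

variable {K : Type*} [NormedField K] [IsUltrametricDist K] [CompleteSpace K]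

/-- the coefficient sequence attached to an integral power series -/
noncomputable def psSeq (f : PowerSeries (ball K)) (n : ℤ) : K :=
  if 0 ≤ n then ((PowerSeries.coeff n.toNat f : ball K) : K) else 0

theorem norm_psSeq_le (f : PowerSeries (ball K)) (n : ℤ) : ‖psSeq f n‖ ≤ 1 := by
  unfold psSeq
  split_ifs
  · exact (PowerSeries.coeff n.toNat f).2
  · rw [norm_zero]; exact zero_le_one

theorem bddAbove_psSeq (f : PowerSeries (ball K)) :
    BddAbove (Set.range fun n => ‖psSeq f n‖) := by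
  refine ⟨1, ?_⟩
  rintro _ ⟨n, rfl⟩
  exact norm_psSeq_le f n

theorem tendsto_psSeq (f : PowerSeries (ball K)) : Tendsto (psSeq f) atBot (𝓝 0) := by
  refine tendsto_const_nhds.congr' ?_
  filter_upwards [eventually_lt_atBot (0 : ℤ)] with n hn
  unfold psSeq
  rw [if_neg (not_le.2 hn)]

/-- an integral power series, as an element of the Amice ring -/
noncomputable def ofPSFun (f : PowerSeries (ball K)) : BAmice K :=
  BAmice.mk (psSeq f) (bddAbove_psSeq f) (tendsto_psSeq f)

theorem coeff_ofPSFun (f : PowerSeries (ball K)) (n : ℤ) :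
    BAmice.coeff n (ofPSFun f) = psSeq f n := BAmice.coeff_mk _ _ _ n

theorem coeff_ofPSFun_natCast (f : PowerSeries (ball K)) (n : ℕ) :
    BAmice.coeff (n : ℤ) (ofPSFun f) = ((PowerSeries.coeff n f : ball K) : K) := by
  rw [coeff_ofPSFun, psSeq, if_pos (Int.natCast_nonneg n), Int.toNat_natCast]

theorem coeff_ofPSFun_neg (f : PowerSeries (ball K)) {n : ℤ} (hn : n < 0) :
    BAmice.coeff n (ofPSFun f) = 0 := by
  rw [coeff_ofPSFun, psSeq, if_neg (not_le.2 hn)]

theorem ofPSFun_mul (f g : PowerSeries (ball K)) : ofPSFun (f * g) = ofPSFun f * ofPSFun g := by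
  apply BAmice.ext; intro n
  rw [BAmice.coeff_mul]
  -- the summand
  set F : ℤ → K := fun i => BAmice.coeff i (ofPSFun f) * BAmice.coeff (n - i) (ofPSFun g) with hF
  have hsupp : Function.support F ⊆ Set.range ((↑) : ℕ → ℤ) := by
    intro i hi
    by_contra hneg
    have hi0 : i < 0 := by
      by_contra h
      exact hneg ⟨i.toNat, Int.toNat_of_nonneg (not_lt.1 h)⟩
    apply hi
    show BAmice.coeff i (ofPSFun f) * BAmice.coeff (n - i) (ofPSFun g) = 0
    rw [coeff_ofPSFun_neg f hi0, zero_mul]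
  have h1 : ∑' i : ℤ, F i = ∑' k : ℕ, F (k : ℤ) :=
    (Function.Injective.tsum_eq Nat.cast_injective hsupp).symm
  rw [h1]
  rcases lt_or_ge n 0 with hn | hn
  · -- negative index: everything vanishes
    rw [coeff_ofPSFun_neg _ hn]
    have : (fun k : ℕ => F (k : ℤ)) = fun _ => 0 := by
      funext k
      show BAmice.coeff (k : ℤ) (ofPSFun f) * BAmice.coeff (n - k) (ofPSFun g) = 0
      rw [coeff_ofPSFun_neg g (by have := Int.natCast_nonneg k; omega), mul_zero]
    rw [this, tsum_zero]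
  · obtain ⟨N, rfl⟩ := Int.eq_ofNat_of_zero_le hn
    have h2 : ∑' k : ℕ, F (k : ℤ) = ∑ k ∈ Finset.range (N + 1), F (k : ℤ) := by
      refine tsum_eq_sum fun k hk => ?_
      have hk' : N < k := by
        rw [Finset.mem_range, not_lt] at hk; omega
      show BAmice.coeff (k : ℤ) (ofPSFun f) * BAmice.coeff ((N : ℤ) - k) (ofPSFun g) = 0
      rw [coeff_ofPSFun_neg g (by omega), mul_zero]
    rw [h2, coeff_ofPSFun_natCast, PowerSeries.coeff_mul,
      Finset.Nat.sum_antidiagonal_eq_sum_range_succ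
        (fun i j => PowerSeries.coeff i f * PowerSeries.coeff j g)]
    rw [AddSubmonoidClass.coe_finsetSum]
    refine Finset.sum_congr rfl fun k hk => ?_
    have hk' : k ≤ N := by rw [Finset.mem_range] at hk; omega
    show _ = BAmice.coeff (k : ℤ) (ofPSFun f) * BAmice.coeff ((N : ℤ) - k) (ofPSFun g)
    have : ((N : ℤ) - k) = ((N - k : ℕ) : ℤ) := by omega
    rw [this, coeff_ofPSFun_natCast, coeff_ofPSFun_natCast]
    rfl

theorem ofPSFun_one : ofPSFun (1 : PowerSeries (ball K)) = 1 := by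
  apply BAmice.ext; intro n
  have h1 : (1 : BAmice K) = algebraMap K (BAmice K) 1 := (map_one _).symm
  rw [h1, BAmice.coeff_algebraMap]
  rcases lt_or_ge n 0 with hn | hn
  · rw [coeff_ofPSFun_neg _ hn, if_neg hn.ne]
  · obtain ⟨N, rfl⟩ := Int.eq_ofNat_of_zero_le hn
    rw [coeff_ofPSFun_natCast, PowerSeries.coeff_one]
    by_cases hN : N = 0
    · rw [if_pos hN, if_pos (by exact_mod_cast hN)]; rfl
    · rw [if_neg hN, if_neg (by exact_mod_cast hN)]; rfl

theorem ofPSFun_add (f g : PowerSeries (ball K)) : ofPSFun (f + g) = ofPSFun f + ofPSFun g := by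
  apply BAmice.ext; intro n
  rw [map_add]
  rcases lt_or_ge n 0 with hn | hn
  · rw [coeff_ofPSFun_neg _ hn, coeff_ofPSFun_neg _ hn, coeff_ofPSFun_neg _ hn, add_zero]
  · obtain ⟨N, rfl⟩ := Int.eq_ofNat_of_zero_le hn
    rw [coeff_ofPSFun_natCast, coeff_ofPSFun_natCast, coeff_ofPSFun_natCast, map_add]
    rfl

theorem ofPSFun_zero : ofPSFun (0 : PowerSeries (ball K)) = 0 := by
  apply BAmice.ext; intro n
  rw [map_zero]
  rcases lt_or_ge n 0 with hn | hn
  · rw [coeff_ofPSFun_neg _ hn]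
  · obtain ⟨N, rfl⟩ := Int.eq_ofNat_of_zero_le hn
    rw [coeff_ofPSFun_natCast, map_zero]
    rfl

/-- integral power series inside the Amice ring -/
noncomputable def ofPS : PowerSeries (ball K) →+* BAmice K where
  toFun := ofPSFun
  map_one' := ofPSFun_one
  map_mul' := ofPSFun_mul
  map_zero' := ofPSFun_zero
  map_add' := ofPSFun_add

theorem coeff_ofPS_natCast (f : PowerSeries (ball K)) (n : ℕ) :
    BAmice.coeff (n : ℤ) (ofPS f) = ((PowerSeries.coeff n f : ball K) : K) :=
  coeff_ofPSFun_natCast f n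

theorem coeff_ofPS_neg (f : PowerSeries (ball K)) {n : ℤ} (hn : n < 0) :
    BAmice.coeff n (ofPS f) = 0 := coeff_ofPSFun_neg f hn

theorem norm_ofPS_le (f : PowerSeries (ball K)) : ‖ofPS f‖ ≤ 1 := by
  rw [BAmice.norm_le_iff]
  intro n
  show ‖BAmice.coeff n (ofPSFun f)‖ ≤ 1
  rw [coeff_ofPSFun]
  exact norm_psSeq_le f n

/-- an element of norm `≤ 1` without negative exponents comes from an integral power series -/
theorem exists_ofPS_eq {c : BAmice K} (hc : SuppIn c (fun n => 0 ≤ n)) (h1 : ‖c‖ ≤ 1) :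
    ∃ f : PowerSeries (ball K), ofPS f = c := by
  refine ⟨PowerSeries.mk fun n => ⟨BAmice.coeff (n : ℤ) c,
    (BAmice.norm_coeff_le _ c).trans h1⟩, ?_⟩
  apply BAmice.ext; intro n
  rcases lt_or_ge n 0 with hn | hn
  · rw [coeff_ofPS_neg _ hn, hc n (not_le.2 hn)]
  · obtain ⟨N, rfl⟩ := Int.eq_ofNat_of_zero_le hn
    rw [coeff_ofPS_natCast, PowerSeries.coeff_mk]

/-- **inverse of a big plus-unit**: `1 + h`, `h` in the plus part with `‖h‖ ≤ 1`, has an inverse
`1 + z` with `z` in the plus part, `‖z‖ ≤ 1`. -/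
theorem exists_inv_pos {h : BAmice K} (hh : h ∈ (split K).BP) (h1 : ‖h‖ ≤ 1) :
    ∃ z ∈ (split K).BP, ‖z‖ ≤ 1 ∧ (1 + h) * (1 + z) = 1 := by
  have hsupp : SuppIn (1 + h) (fun n => 0 ≤ n) := by
    refine suppIn_add (suppIn_one le_rfl) ?_
    intro n hn
    exact mem_BP_iff.1 hh n (fun h' => hn h'.le)
  have hnorm : ‖1 + h‖ ≤ 1 :=
    (IsUltrametricDist.norm_add_le_max 1 h).trans (max_le norm_one.le h1)
  obtain ⟨f, hf⟩ := exists_ofPS_eq hsupp hnorm
  have hc0 : BAmice.coeff 0 (1 + h) = 1 := by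
    have h1' : (1 : BAmice K) = algebraMap K (BAmice K) 1 := (map_one _).symm
    rw [map_add, h1', BAmice.coeff_algebraMap, if_pos rfl,
      mem_BP_iff.1 hh 0 (lt_irrefl 0), add_zero]
  have hf0 : PowerSeries.constantCoeff f = 1 := by
    have := coeff_ofPS_natCast f 0
    rw [hf, Nat.cast_zero, hc0] at this
    rw [← PowerSeries.coeff_zero_eq_constantCoeff_apply]
    exact Subtype.ext this.symm
  have hunit : IsUnit f := by
    rw [PowerSeries.isUnit_iff_constantCoeff, hf0]
    exact isUnit_one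
  obtain ⟨g, hg⟩ := hunit.exists_right_inv
  have hg0 : PowerSeries.constantCoeff g = 1 := by
    have := congrArg PowerSeries.constantCoeff hg
    rwa [map_mul, hf0, one_mul, map_one] at this
  refine ⟨ofPS g - 1, ?_, ?_, ?_⟩
  · rw [mem_BP_iff]
    intro n hn
    have h1' : (1 : BAmice K) = algebraMap K (BAmice K) 1 := (map_one _).symm
    rw [map_sub, h1', BAmice.coeff_algebraMap]
    rcases lt_trichotomy n 0 with h | h | h
    · rw [coeff_ofPS_neg _ h, if_neg h.ne, sub_zero]
    · rw [h, if_pos rfl]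
      have := coeff_ofPS_natCast g 0
      rw [Nat.cast_zero] at this
      rw [this, PowerSeries.coeff_zero_eq_constantCoeff_apply, hg0]
      exact sub_self _
    · exact absurd h hn
  · exact norm_sub_le_of_le (norm_ofPS_le g) norm_one.le
  · rw [add_sub_cancel, ← hf, ← map_mul, hg, map_one]

end Fermat.Agent.FF3.AmiceU
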