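import Mathlib
import Fermat.Agent.FF3.AmiceU.PS

/-!
# FF3 / AmiceU : the closed unit ball of a Banach algebra is `ϖ`-adically complete

`K` a normed field, `ϖ : K` with `0 < ‖ϖ‖ < 1`, `B` a complete ultrametric normed commutative
`K`-algebra with `‖1‖ = 1`, `ball B` its closed unit ball, `w : ball B` the image of `ϖ`.

* `mem_span_pow_iff`       : `x ∈ (w) ^ n ↔ ‖x‖ ≤ ‖ϖ‖ ^ n` (no discreteness needed);
* `exists_limit_ball`      : the elementary Cauchy form of completeness;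
* `isHausdorff_ball`, `isPrecomplete_ball`, `isAdicComplete_ball` : `ball B` is `(w)`-adically
  complete.

Applies to `B = K`, `B = BAmice K` (the integral Amice ring), `B = NodeB π`.
-/

set_option autoImplicit false
set_option linter.unusedSectionVars false

namespace Fermat.Agent.FF3.AmiceU

open Filter Topology

variable {K : Type*} [NormedField K] {B : Type*} [NormedCommRing B] [NormedAlgebra K B]
  [IsUltrametricDist B] [NormOneClass B]

/-- the powers of the ideal generated by the uniformiser are the balls of radius `‖ϖ‖ ^ n` -/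
theorem mem_span_pow_iff {ϖ : K} (h0 : ϖ ≠ 0) (w : ↥(ball B)) (hw : (w : B) = algebraMap K B ϖ)
    (n : ℕ) (x : ↥(ball B)) :
    x ∈ (Ideal.span {w} : Ideal ↥(ball B)) ^ n ↔ ‖(x : B)‖ ≤ ‖ϖ‖ ^ n := by
  rw [Ideal.span_singleton_pow, Ideal.mem_span_singleton']
  constructor
  · rintro ⟨a, rfl⟩
    have h1 : ((a * w ^ n : ↥(ball B)) : B) = (a : B) * algebraMap K B ϖ ^ n := by
      rw [Subring.coe_mul, Subring.coe_pow, hw]
    rw [h1]
    calc ‖(a : B) * algebraMap K B ϖ ^ n‖ ≤ ‖(a : B)‖ * ‖algebraMap K B ϖ ^ n‖ := norm_mul_le _ _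
      _ ≤ 1 * ‖ϖ‖ ^ n := by
          refine mul_le_mul a.2 ?_ (norm_nonneg _) zero_le_one
          calc ‖algebraMap K B ϖ ^ n‖ ≤ ‖algebraMap K B ϖ‖ ^ n := norm_pow_le _ _
            _ = ‖ϖ‖ ^ n := by rw [norm_algebraMap']
      _ = ‖ϖ‖ ^ n := one_mul _
  · intro hx
    have hp : 0 < ‖ϖ‖ := norm_pos_iff.2 h0
    have hy : ‖(ϖ⁻¹ ^ n) • (x : B)‖ ≤ 1 := by
      rw [norm_smul, norm_pow, norm_inv, inv_pow]
      rw [inv_mul_le_iff₀ (pow_pos hp n), mul_one]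
      exact hx
    refine ⟨⟨(ϖ⁻¹ ^ n) • (x : B), hy⟩, ?_⟩
    apply Subtype.ext
    rw [Subring.coe_mul, Subring.coe_pow, hw]
    show (ϖ⁻¹ ^ n) • (x : B) * algebraMap K B ϖ ^ n = (x : B)
    rw [Algebra.smul_def, ← map_pow, mul_right_comm, ← map_mul, ← mul_pow, inv_mul_cancel₀ h0,
      one_pow, map_one, one_mul]

/-- the powers of the ideal generated by the uniformiser, as submodules of the ring itself -/
theorem mem_span_pow_smul_top_iff {ϖ : K} (h0 : ϖ ≠ 0) (w : ↥(ball B))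
    (hw : (w : B) = algebraMap K B ϖ) (n : ℕ) (x : ↥(ball B)) :
    x ∈ ((Ideal.span {w} : Ideal ↥(ball B)) ^ n • ⊤ : Submodule ↥(ball B) ↥(ball B))
      ↔ ‖(x : B)‖ ≤ ‖ϖ‖ ^ n := by
  rw [smul_eq_mul, Ideal.mul_top]
  exact mem_span_pow_iff h0 w hw n x

/-- **the closed unit ball is `ϖ`-adically separated** -/
theorem isHausdorff_ball {ϖ : K} (h0 : ϖ ≠ 0) (h1 : ‖ϖ‖ < 1) (w : ↥(ball B))
    (hw : (w : B) = algebraMap K B ϖ) : IsHausdorff (Ideal.span {w}) ↥(ball B) := by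
  refine ⟨fun x hx => ?_⟩
  have hle : ∀ n : ℕ, ‖(x : B)‖ ≤ ‖ϖ‖ ^ n := fun n =>
    (mem_span_pow_smul_top_iff h0 w hw n x).1 (SModEq.zero.1 (hx n))
  have hlim : Tendsto (fun n : ℕ => ‖ϖ‖ ^ n) atTop (𝓝 0) :=
    tendsto_pow_atTop_nhds_zero_of_lt_one (norm_nonneg _) h1
  have h0' : ‖(x : B)‖ ≤ 0 := ge_of_tendsto' hlim hle
  exact Subtype.ext (norm_le_zero_iff.1 h0')

variable [CompleteSpace B]

/-- **completeness of the closed unit ball, elementary Cauchy form** -/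
theorem exists_limit_ball {ϖ : K} (h1 : ‖ϖ‖ < 1) (f : ℕ → ↥(ball B))
    (hf : ∀ m n : ℕ, m ≤ n → ‖((f m : ↥(ball B)) : B) - (f n : B)‖ ≤ ‖ϖ‖ ^ m) :
    ∃ L : ↥(ball B), ∀ n : ℕ, ‖((f n : ↥(ball B)) : B) - (L : B)‖ ≤ ‖ϖ‖ ^ n := by
  have hcau : CauchySeq fun n => ((f n : ↥(ball B)) : B) := by
    refine cauchySeq_of_le_geometric ‖ϖ‖ 1 h1 fun n => ?_
    rw [dist_eq_norm, one_mul]
    exact hf n (n + 1) (Nat.le_succ n)
  obtain ⟨L, hL⟩ := cauchySeq_tendsto_of_complete hcau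
  have hL1 : ‖L‖ ≤ 1 :=
    le_of_tendsto' ((continuous_norm.tendsto L).comp hL) fun n => (f n).2
  refine ⟨⟨L, hL1⟩, fun n => ?_⟩
  have hsub : Tendsto (fun m => ‖((f n : ↥(ball B)) : B) - (f m : B)‖) atTop
      (𝓝 ‖((f n : ↥(ball B)) : B) - L‖) :=
    (continuous_norm.tendsto _).comp (tendsto_const_nhds.sub hL)
  refine le_of_tendsto hsub ?_
  filter_upwards [eventually_ge_atTop n] with m hm
  exact hf n m hm

/-- **the closed unit ball is `ϖ`-adically precomplete** -/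
theorem isPrecomplete_ball {ϖ : K} (h0 : ϖ ≠ 0) (h1 : ‖ϖ‖ < 1) (w : ↥(ball B))
    (hw : (w : B) = algebraMap K B ϖ) : IsPrecomplete (Ideal.span {w}) ↥(ball B) := by
  refine ⟨fun f hf => ?_⟩
  have hf' : ∀ m n : ℕ, m ≤ n → ‖((f m : ↥(ball B)) : B) - (f n : B)‖ ≤ ‖ϖ‖ ^ m := by
    intro m n hmn
    have := (mem_span_pow_smul_top_iff h0 w hw m (f m - f n)).1 (SModEq.sub_mem.1 (hf hmn))
    rwa [AddSubgroupClass.coe_sub] at this
  obtain ⟨L, hL⟩ := exists_limit_ball h1 f hf'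
  refine ⟨L, fun n => SModEq.sub_mem.2 ?_⟩
  rw [mem_span_pow_smul_top_iff h0 w hw n, AddSubgroupClass.coe_sub]
  exact hL n

/-- **the closed unit ball of a Banach algebra is `ϖ`-adically complete** -/
theorem isAdicComplete_ball {ϖ : K} (h0 : ϖ ≠ 0) (h1 : ‖ϖ‖ < 1) (w : ↥(ball B))
    (hw : (w : B) = algebraMap K B ϖ) : IsAdicComplete (Ideal.span {w}) ↥(ball B) :=
  { toIsHausdorff := isHausdorff_ball h0 h1 w hw
    toIsPrecomplete := isPrecomplete_ball h0 h1 w hw }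

/-- completeness, ideal form: a sequence with `f (n + 1) - f n ∈ (w) ^ n` has a limit `L` with
`L - f n ∈ (w) ^ n` -/
theorem exists_limit_ball_of_succ {ϖ : K} (h0 : ϖ ≠ 0) (h1 : ‖ϖ‖ < 1) (w : ↥(ball B))
    (hw : (w : B) = algebraMap K B ϖ) (f : ℕ → ↥(ball B))
    (hf : ∀ n : ℕ, f (n + 1) - f n ∈ (Ideal.span {w} : Ideal ↥(ball B)) ^ n) :
    ∃ L : ↥(ball B), ∀ n : ℕ, L - f n ∈ (Ideal.span {w} : Ideal ↥(ball B)) ^ n := by
  have hp : 0 ≤ ‖ϖ‖ := norm_nonneg _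
  have hstep : ∀ n : ℕ, ‖((f (n + 1) : ↥(ball B)) : B) - (f n : B)‖ ≤ ‖ϖ‖ ^ n := by
    intro n
    have := (mem_span_pow_iff h0 w hw n _).1 (hf n)
    rwa [AddSubgroupClass.coe_sub] at this
  have hf' : ∀ m n : ℕ, m ≤ n → ‖((f m : ↥(ball B)) : B) - (f n : B)‖ ≤ ‖ϖ‖ ^ m := by
    intro m n hmn
    induction n, hmn using Nat.le_induction with
    | base => rw [sub_self, norm_zero]; exact pow_nonneg hp _
    | succ k hk ih =>
      have e : ((f m : ↥(ball B)) : B) - (f (k + 1) : B)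
          = (((f m : ↥(ball B)) : B) - (f k : B)) - ((f (k + 1) : B) - (f k : B)) := by ring
      rw [e]
      rw [sub_eq_add_neg]
      refine (IsUltrametricDist.norm_add_le_max _ _).trans (max_le ih ?_)
      rw [norm_neg]
      exact (hstep k).trans (pow_le_pow_of_le_one hp h1.le hk)
  obtain ⟨L, hL⟩ := exists_limit_ball h1 f hf'
  refine ⟨L, fun n => ?_⟩
  rw [mem_span_pow_iff h0 w hw n, AddSubgroupClass.coe_sub, ← norm_neg, neg_sub]
  exact hL n

/-- the integral Amice ring is `ϖ`-adically complete -/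
theorem isAdicComplete_ball_bAmice {K : Type*} [NormedField K] [IsUltrametricDist K]
    [CompleteSpace K] {ϖ : K} (h0 : ϖ ≠ 0) (h1 : ‖ϖ‖ < 1)
    (w : ↥(ball (Fermat.Agent.FF3.Amice.BAmice K)))
    (hw : (w : Fermat.Agent.FF3.Amice.BAmice K)
      = algebraMap K (Fermat.Agent.FF3.Amice.BAmice K) ϖ) :
    IsAdicComplete (Ideal.span {w}) ↥(ball (Fermat.Agent.FF3.Amice.BAmice K)) :=
  isAdicComplete_ball h0 h1 w hw

/-- the valuation ring of a complete ultrametric normed field is `ϖ`-adically complete -/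
theorem isAdicComplete_ball_self {K : Type*} [NormedField K] [IsUltrametricDist K]
    [CompleteSpace K] {ϖ : K} (h0 : ϖ ≠ 0) (h1 : ‖ϖ‖ < 1) (w : ↥(ball K)) (hw : (w : K) = ϖ) :
    IsAdicComplete (Ideal.span {w}) ↥(ball K) :=
  isAdicComplete_ball (K := K) (B := K) h0 h1 w hw

end Fermat.Agent.FF3.AmiceU
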