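import Mathlib
import Fermat.Agent.FF3.AmiceU.PS

/-!
# FF3 / AmiceU : the unit structure of the Amice ring (L1-E, part 3)

`IsAttainedAt x a` : `a` is the least index where the norm of `x` is attained.

* `exists_isAttainedAt` : if the norm of `x ≠ 0` is attained by some coefficient, there is a least
  such index.
* `exists_factor` : **existence**.  If `IsAttainedAt x a`, `x ≠ 0`, then
  `x = c • X^a · (1 + b) · (1 + d)` with `c ∈ Kˣ`, `‖c‖ = ‖x‖`, `b` in the plus part with `‖b‖ ≤ 1`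
  (NOT small), `d` in the minus part with `‖d‖ < 1`.
* `factor_unique` : **uniqueness** of such a factorisation.
-/

set_option autoImplicit false
set_option linter.unusedSectionVars false

namespace Fermat.Agent.FF3.AmiceU

open Filter Topology
open Fermat.Agent.FF3.Amice Fermat.Agent.FF3.Birkhoff
open scoped Classical

variable {K : Type*} [NormedField K] [IsUltrametricDist K] [CompleteSpace K]

/-! ### coefficient bookkeeping -/

theorem coeff_one (n : ℤ) : BAmice.coeff n (1 : BAmice K) = if n = 0 then 1 else 0 := by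
  have h1 : (1 : BAmice K) = algebraMap K (BAmice K) 1 := (map_one _).symm
  rw [h1, BAmice.coeff_algebraMap]

theorem coeff_algebraMap_mul (k : K) (z : BAmice K) (n : ℤ) :
    BAmice.coeff n (algebraMap K (BAmice K) k * z) = k * BAmice.coeff n z := by
  rw [← Algebra.smul_def, map_smul, smul_eq_mul]

theorem coeff_one_add_of_mem_BP {b : BAmice K} (hb : b ∈ (split K).BP) (n : ℤ) :
    BAmice.coeff n (1 + b) = if n = 0 then 1 else if 0 < n then BAmice.coeff n b else 0 := by
  rw [map_add, coeff_one]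
  rcases lt_trichotomy n 0 with h | h | h
  · rw [if_neg h.ne, if_neg h.ne, if_neg (not_lt.2 h.le), zero_add]
    exact mem_BP_iff.1 hb n (not_lt.2 h.le)
  · rw [if_pos h, if_pos h, mem_BP_iff.1 hb n (by rw [h]; exact lt_irrefl 0), add_zero]
  · rw [if_neg h.ne', if_neg h.ne', if_pos h, zero_add]

theorem coeff_one_add_of_mem_BM {d : BAmice K} (hd : d ∈ (split K).BM) (n : ℤ) :
    BAmice.coeff n (1 + d) = if n = 0 then 1 else if n < 0 then BAmice.coeff n d else 0 := by
  rw [map_add, coeff_one]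
  rcases lt_trichotomy n 0 with h | h | h
  · rw [if_neg h.ne, if_neg h.ne, if_pos h, zero_add]
  · rw [if_pos h, if_pos h, mem_BM_iff.1 hd n (by rw [h]; exact lt_irrefl 0), add_zero]
  · rw [if_neg h.ne', if_neg h.ne', if_neg (not_lt.2 h.le), zero_add]
    exact mem_BM_iff.1 hd n (not_lt.2 h.le)

/-! ### attained norms -/

/-- if the coefficients tend to `0` in both directions, the norm is attained -/
theorem exists_norm_coeff_eq {z : BAmice K} (hz : z ≠ 0)
    (ht : Tendsto (fun n => BAmice.coeff n z) cofinite (𝓝 0)) :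
    ∃ n, ‖BAmice.coeff n z‖ = ‖z‖ := by
  have hpos : 0 < ‖z‖ := norm_pos_iff.2 hz
  have hfin : {n : ℤ | ‖z‖ / 2 ≤ ‖BAmice.coeff n z‖}.Finite := by
    have := (tendsto_norm_zero.comp ht).eventually (gt_mem_nhds (half_pos hpos))
    rw [Filter.eventually_cofinite] at this
    refine this.subset ?_
    intro n hn
    simpa using hn
  have hne : {n : ℤ | ‖z‖ / 2 ≤ ‖BAmice.coeff n z‖}.Nonempty := by
    by_contra hempty
    rw [Set.not_nonempty_iff_eq_empty] at hempty
    have : ‖z‖ ≤ ‖z‖ / 2 := by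
      rw [BAmice.norm_le_iff]
      intro n
      by_contra hn
      have : n ∈ {n : ℤ | ‖z‖ / 2 ≤ ‖BAmice.coeff n z‖} := (not_le.1 hn).le
      rw [hempty] at this
      exact this
    linarith
  obtain ⟨n₀, hn₀, hmax⟩ := hfin.toFinset.exists_max_image (fun n => ‖BAmice.coeff n z‖)
    (by simpa using hne)
  have hn₀' : ‖z‖ / 2 ≤ ‖BAmice.coeff n₀ z‖ := by simpa using hn₀
  refine ⟨n₀, le_antisymm (BAmice.norm_coeff_le n₀ z) ?_⟩
  rw [BAmice.norm_le_iff]
  intro n
  by_cases hn : ‖z‖ / 2 ≤ ‖BAmice.coeff n z‖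
  · exact hmax n (by simpa using hn)
  · exact (not_le.1 hn).le.trans hn₀'

/-- `a` is the least index where the norm of `x` is attained -/
def IsAttainedAt (x : BAmice K) (a : ℤ) : Prop :=
  ‖BAmice.coeff a x‖ = ‖x‖ ∧ ∀ n < a, ‖BAmice.coeff n x‖ < ‖x‖

theorem exists_isAttainedAt {x : BAmice K} (hx : x ≠ 0) (h : ∃ n, ‖BAmice.coeff n x‖ = ‖x‖) :
    ∃ a, IsAttainedAt x a := by
  have hpos : 0 < ‖x‖ := norm_pos_iff.2 hx
  have hev := (tendsto_norm_zero.comp (BAmice.tendsto_coeff_atBot x)).eventually (gt_mem_nhds hpos)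
  obtain ⟨N, hN⟩ := Filter.eventually_atBot.1 hev
  obtain ⟨a, ha, hmin⟩ := Int.exists_least_of_bdd (P := fun n => ‖BAmice.coeff n x‖ = ‖x‖)
    ⟨N, fun z hz => by
      by_contra hlt
      have := hN z (not_le.1 hlt).le
      simp only [Function.comp] at this
      rw [hz] at this
      exact lt_irrefl _ this⟩ h
  refine ⟨a, ha, fun n hn => lt_of_le_of_ne (BAmice.norm_coeff_le n x) fun heq => ?_⟩
  exact absurd (hmin n heq) (not_le.2 hn)

/-- the minus part of an element whose negative coefficients all have norm `< 1` has norm `< 1` -/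
theorem norm_pM_lt_one {y : BAmice K} (h : ∀ n < 0, ‖BAmice.coeff n y‖ < 1) : ‖pM y‖ < 1 := by
  by_cases hz : pM y = 0
  · rw [hz, norm_zero]; exact zero_lt_one
  have ht : Tendsto (fun n => BAmice.coeff n (pM y)) cofinite (𝓝 0) := by
    rw [Int.cofinite_eq]
    refine Tendsto.sup (BAmice.tendsto_coeff_atBot _) ?_
    refine tendsto_const_nhds.congr' ?_
    filter_upwards [eventually_gt_atTop (0 : ℤ)] with n hn
    show (0 : K) = BAmice.coeff n (trunc _ y)
    rw [coeff_trunc, if_neg (not_lt.2 hn.le)]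
  obtain ⟨n, hn⟩ := exists_norm_coeff_eq hz ht
  rw [← hn]
  show ‖BAmice.coeff n (trunc _ y)‖ < 1
  rw [coeff_trunc]
  split_ifs with hn0
  · exact h n hn0
  · rw [norm_zero]; exact zero_lt_one

/-! ### existence -/

/-- **Unit structure, existence.** -/
theorem exists_factor {x : BAmice K} {a : ℤ} (hx : x ≠ 0) (ha : IsAttainedAt x a) :
    ∃ c : K, c ≠ 0 ∧ ‖c‖ = ‖x‖ ∧ ∃ b ∈ (split K).BP, ‖b‖ ≤ 1 ∧ ∃ d ∈ (split K).BM, ‖d‖ < 1 ∧
      x = algebraMap K (BAmice K) c * ((BAmice.X ^ a : (BAmice K)ˣ) : BAmice K)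
        * (1 + b) * (1 + d) := by
  have hpos : 0 < ‖x‖ := norm_pos_iff.2 hx
  set c₀ : K := BAmice.coeff a x with hc₀
  have hc₀n : ‖c₀‖ = ‖x‖ := ha.1
  have hc₀0 : c₀ ≠ 0 := by
    intro h0; rw [h0, norm_zero] at hc₀n; exact hpos.ne hc₀n
  set y : BAmice K := algebraMap K (BAmice K) c₀⁻¹ *
    (((BAmice.X ^ (-a) : (BAmice K)ˣ) : BAmice K) * x) with hy
  have hcy : ∀ n, BAmice.coeff n y = c₀⁻¹ * BAmice.coeff (n + a) x := by
    intro n
    rw [hy, coeff_algebraMap_mul, BAmice.coeff_X_zpow_mul, sub_neg_eq_add]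
  have hcy0 : BAmice.coeff 0 y = 1 := by
    rw [hcy, zero_add, ← hc₀, inv_mul_cancel₀ hc₀0]
  have hcyn : ∀ n, ‖BAmice.coeff n y‖ ≤ 1 := by
    intro n
    rw [hcy, norm_mul, norm_inv, hc₀n, inv_mul_le_iff₀ hpos, mul_one]
    exact BAmice.norm_coeff_le _ x
  have hcyneg : ∀ n < 0, ‖BAmice.coeff n y‖ < 1 := by
    intro n hn
    rw [hcy, norm_mul, norm_inv, hc₀n, inv_mul_lt_iff₀ hpos, mul_one]
    exact ha.2 _ (by omega)
  have hy1 : ‖y‖ ≤ 1 := BAmice.norm_le_iff.2 hcyn
  -- `x` in terms of `y`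
  have hxy : x = algebraMap K (BAmice K) c₀ * ((BAmice.X ^ a : (BAmice K)ˣ) : BAmice K) * y := by
    have h1 : ((BAmice.X ^ a : (BAmice K)ˣ) : BAmice K)
        * ((BAmice.X ^ (-a) : (BAmice K)ˣ) : BAmice K) = 1 := by
      rw [← Units.val_mul, ← zpow_add, add_neg_cancel, zpow_zero, Units.val_one]
    have h2 : algebraMap K (BAmice K) c₀ * algebraMap K (BAmice K) c₀⁻¹ = 1 := by
      rw [← map_mul, mul_inv_cancel₀ hc₀0, map_one]
    calc x = (algebraMap K (BAmice K) c₀ * algebraMap K (BAmice K) c₀⁻¹)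
          * (((BAmice.X ^ a : (BAmice K)ˣ) : BAmice K)
            * ((BAmice.X ^ (-a) : (BAmice K)ˣ) : BAmice K)) * x := by
          rw [h1, h2, one_mul, one_mul]
      _ = algebraMap K (BAmice K) c₀ * ((BAmice.X ^ a : (BAmice K)ˣ) : BAmice K) * y := by
          rw [hy]; ring
  -- the three parts of `y`
  set hp : BAmice K := pP y with hhp
  set hm : BAmice K := pM y with hhm
  have hp_mem : hp ∈ (split K).BP := (split K).pP_mem y
  have hm_mem : hm ∈ (split K).BM := (split K).pM_mem y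
  have hp1 : ‖hp‖ ≤ 1 := (norm_trunc_le _ y).trans hy1
  have hm1 : ‖hm‖ < 1 := norm_pM_lt_one hcyneg
  have hp0 : p0 y = 1 := by
    apply BAmice.ext; intro n
    show BAmice.coeff n (trunc _ y) = _
    rw [coeff_trunc, coeff_one]
    split_ifs with hn
    · rw [hn, hcy0]
    · rfl
  have hysum : y = 1 + hp + hm := by
    have := (split K).add_eq y
    show y = 1 + pP y + pM y
    rw [← hp0]
    exact this.symm
  -- invert the big plus unit
  obtain ⟨z, hz_mem, hz1, hz⟩ := exists_inv_pos hp_mem hp1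
  set G : BAmice K := y * (1 + z) with hG
  have hG1 : G - 1 = hm * (1 + z) := by
    rw [hG, hysum]
    calc (1 + hp + hm) * (1 + z) - 1 = (1 + hp) * (1 + z) + hm * (1 + z) - 1 := by ring
      _ = hm * (1 + z) := by rw [hz]; ring
  have h1z : ‖1 + z‖ ≤ 1 := norm_add_le_of_le norm_one.le hz1
  have hGn : ‖G - 1‖ < 1 := by
    rw [hG1]
    calc ‖hm * (1 + z)‖ ≤ ‖hm‖ * ‖1 + z‖ := norm_mul_le _ _
      _ ≤ ‖hm‖ * 1 := mul_le_mul_of_nonneg_left h1z (norm_nonneg _)
      _ = ‖hm‖ := mul_one _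
      _ < 1 := hm1
  obtain ⟨a', b', d', ha', hb', hd', hna', hnb', hnd', -, hfac⟩ := (split K).exists_factor hGn
  -- reassemble
  have hyG : y = G * (1 + hp) := by
    rw [hG]
    calc y = y * ((1 + hp) * (1 + z)) := by rw [hz, mul_one]
      _ = y * (1 + z) * (1 + hp) := by ring
  set α : K := BAmice.coeff 0 a' with hα
  have ha'eq : a' = algebraMap K (BAmice K) α := eq_algebraMap_of_mem_B0 ha'
  have hαn : ‖α‖ < 1 := ((BAmice.norm_coeff_le 0 a').trans hna').trans_lt hGn
  have h1α : ‖1 + α‖ = 1 := by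
    have := IsUltrametricDist.norm_add_eq_max_of_norm_ne_norm (x := (1 : K)) (y := α)
      (by rw [norm_one]; exact hαn.ne')
    rw [this, norm_one, max_eq_left hαn.le]
  have h1α0 : 1 + α ≠ 0 := by
    intro h0; rw [h0, norm_zero] at h1α; exact zero_ne_one h1α
  refine ⟨c₀ * (1 + α), mul_ne_zero hc₀0 h1α0, by rw [norm_mul, h1α, mul_one, hc₀n],
    (1 + b') * (1 + hp) - 1, split_isMul.one_add_mul_sub_one_mem_BP hb' hp_mem,
    norm_one_add_mul_sub_one_le le_rfl (hnb'.trans hGn.le) hp1, d', hd', hnd'.trans_lt hGn, ?_⟩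
  have h1a' : (1 : BAmice K) + a' = algebraMap K (BAmice K) (1 + α) := by
    rw [map_add, map_one, ← ha'eq]
  rw [hxy, hyG, hfac, h1a', map_mul]
  ring

/-! ### uniqueness -/

/-- **Unit structure, uniqueness.** -/
theorem factor_unique {c c' : K} (hc : c ≠ 0) (hc' : c' ≠ 0) {a a' : ℤ} {b d b' d' : BAmice K}
    (hb : b ∈ (split K).BP) (hd : d ∈ (split K).BM) (hb' : b' ∈ (split K).BP)
    (hd' : d' ∈ (split K).BM) (hb1 : ‖b‖ ≤ 1) (hd1 : ‖d‖ < 1) (hb1' : ‖b'‖ ≤ 1) (hd1' : ‖d'‖ < 1)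
    (h : algebraMap K (BAmice K) c * ((BAmice.X ^ a : (BAmice K)ˣ) : BAmice K) * (1 + b) * (1 + d)
      = algebraMap K (BAmice K) c' * ((BAmice.X ^ a' : (BAmice K)ˣ) : BAmice K)
          * (1 + b') * (1 + d')) :
    a = a' ∧ c = c' ∧ b = b' ∧ d = d' := by
  obtain ⟨z', hz'm, hz'1, hz'⟩ := exists_inv_pos hb' hb1'
  obtain ⟨θ, hθm, hθ1, hθ⟩ := split_isMul.exists_inv_BM hd hd1
  set β : BAmice K := (1 + b) * (1 + z') - 1 with hβ
  set δ : BAmice K := (1 + d') * (1 + θ) - 1 with hδ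
  have hβm : β ∈ (split K).BP := split_isMul.one_add_mul_sub_one_mem_BP hb hz'm
  have hδm : δ ∈ (split K).BM := split_isMul.one_add_mul_sub_one_mem_BM hd' hθm
  have hβ1 : ‖β‖ ≤ 1 := norm_one_add_mul_sub_one_le le_rfl hb1 hz'1
  have hδ1 : ‖δ‖ < 1 := by
    set ε : ℝ := max ‖d'‖ ‖d‖ with hε
    have hε1 : ε < 1 := max_lt hd1' hd1
    exact (norm_one_add_mul_sub_one_le hε1.le (le_max_left _ _)
      (hθ1.trans (le_max_right _ _))).trans_lt hε1
  set k : ℤ := a - a' with hk
  set lam : K := c'⁻¹ * c with hlam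
  have hlam0 : lam ≠ 0 := mul_ne_zero (inv_ne_zero hc') hc
  -- the key identity `lam • X^k (1 + β) = 1 + δ`
  have hunit : ((BAmice.X ^ a' : (BAmice K)ˣ) : BAmice K)
      * ((BAmice.X ^ (-a') : (BAmice K)ˣ) : BAmice K) = 1 := by
    rw [← Units.val_mul, ← zpow_add, add_neg_cancel, zpow_zero, Units.val_one]
  have hadd : ((BAmice.X ^ a : (BAmice K)ˣ) : BAmice K)
      * ((BAmice.X ^ (-a') : (BAmice K)ˣ) : BAmice K)
      = ((BAmice.X ^ k : (BAmice K)ˣ) : BAmice K) := by
    rw [← Units.val_mul, ← zpow_add, hk, sub_eq_add_neg]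
  have hcc : algebraMap K (BAmice K) c'⁻¹ * algebraMap K (BAmice K) c' = 1 := by
    rw [← map_mul, inv_mul_cancel₀ hc', map_one]
  have key : algebraMap K (BAmice K) lam * (((BAmice.X ^ k : (BAmice K)ˣ) : BAmice K) * (1 + β))
      = 1 + δ := by
    have h2 := congrArg (fun w => w * (algebraMap K (BAmice K) c'⁻¹
      * ((BAmice.X ^ (-a') : (BAmice K)ˣ) : BAmice K) * (1 + z') * (1 + θ))) h
    calc algebraMap K (BAmice K) lam * (((BAmice.X ^ k : (BAmice K)ˣ) : BAmice K) * (1 + β))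
        = algebraMap K (BAmice K) c'⁻¹ * algebraMap K (BAmice K) c
            * (((BAmice.X ^ a : (BAmice K)ˣ) : BAmice K)
              * ((BAmice.X ^ (-a') : (BAmice K)ˣ) : BAmice K))
            * ((1 + b) * (1 + z')) * ((1 + d) * (1 + θ)) := by
          rw [hadd, hθ, hlam, map_mul, hβ]; ring
      _ = algebraMap K (BAmice K) c * ((BAmice.X ^ a : (BAmice K)ˣ) : BAmice K) * (1 + b) * (1 + d)
            * (algebraMap K (BAmice K) c'⁻¹
              * ((BAmice.X ^ (-a') : (BAmice K)ˣ) : BAmice K) * (1 + z') * (1 + θ)) := by ring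
      _ = algebraMap K (BAmice K) c' * ((BAmice.X ^ a' : (BAmice K)ˣ) : BAmice K)
            * (1 + b') * (1 + d')
            * (algebraMap K (BAmice K) c'⁻¹
              * ((BAmice.X ^ (-a') : (BAmice K)ˣ) : BAmice K) * (1 + z') * (1 + θ)) := h2
      _ = (algebraMap K (BAmice K) c'⁻¹ * algebraMap K (BAmice K) c')
            * (((BAmice.X ^ a' : (BAmice K)ˣ) : BAmice K)
              * ((BAmice.X ^ (-a') : (BAmice K)ˣ) : BAmice K))
            * ((1 + b') * (1 + z')) * ((1 + d') * (1 + θ)) := by ring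
      _ = 1 + δ := by rw [hcc, hunit, hz', hδ]; ring
  -- coefficients of both sides
  have hL : ∀ n, BAmice.coeff n (1 + δ) = lam * BAmice.coeff (n - k) (1 + β) := by
    intro n
    rw [← key, coeff_algebraMap_mul, BAmice.coeff_X_zpow_mul]
  have hk0 : k = 0 := by
    rcases lt_trichotomy k 0 with hneg | hzero | hpos
    · exfalso
      -- coefficient `k`
      have e1 := hL k
      rw [sub_self, coeff_one_add_of_mem_BP hβm, if_pos rfl, mul_one,
        coeff_one_add_of_mem_BM hδm, if_neg hneg.ne, if_pos hneg] at e1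
      have hlam1 : ‖lam‖ < 1 := by
        rw [← e1]; exact (BAmice.norm_coeff_le k δ).trans_lt hδ1
      -- coefficient `0`
      have e0 := hL 0
      rw [coeff_one_add_of_mem_BM hδm, if_pos rfl, zero_sub, coeff_one_add_of_mem_BP hβm,
        if_neg (by omega), if_pos (by omega)] at e0
      have : ‖(1 : K)‖ < 1 := by
        rw [e0, norm_mul]
        calc ‖lam‖ * ‖BAmice.coeff (-k) β‖ ≤ ‖lam‖ * 1 :=
              mul_le_mul_of_nonneg_left ((BAmice.norm_coeff_le _ β).trans hβ1) (norm_nonneg _)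
          _ = ‖lam‖ := mul_one _
          _ < 1 := hlam1
      rw [norm_one] at this
      exact lt_irrefl _ this
    · exact hzero
    · exfalso
      have e0 := hL 0
      rw [coeff_one_add_of_mem_BM hδm, if_pos rfl, zero_sub, coeff_one_add_of_mem_BP hβm,
        if_neg (by omega), if_neg (by omega), mul_zero] at e0
      exact one_ne_zero e0
  have hlam1 : lam = 1 := by
    have e0 := hL 0
    rw [hk0, sub_zero, coeff_one_add_of_mem_BM hδm, if_pos rfl, coeff_one_add_of_mem_BP hβm,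
      if_pos rfl, mul_one] at e0
    exact e0.symm
  have hβδ : β = δ := by
    have := key
    rw [hk0, zpow_zero, Units.val_one, one_mul, hlam1, map_one, one_mul] at this
    exact add_left_cancel this
  have hβ0 : β = 0 := by
    have h1 : pM β = 0 := (split K).pM_of_mem_BP hβm
    have h2 : pM β = β := by rw [hβδ]; exact hδm
    rw [← h2, h1]
  have hδ0 : δ = 0 := by rw [← hβδ, hβ0]
  refine ⟨sub_eq_zero.1 hk0, ?_, ?_, ?_⟩
  · have : c'⁻¹ * c = 1 := hlam1
    calc c = c' * (c'⁻¹ * c) := by rw [← mul_assoc, mul_inv_cancel₀ hc', one_mul]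
      _ = c' := by rw [this, mul_one]
  · have h4 : (1 + b) * (1 + z') = 1 := by
      have : (1 + b) * (1 + z') - 1 = 0 := hβ0
      exact sub_eq_zero.1 this
    have : 1 + b = 1 + b' := by
      calc 1 + b = (1 + b) * ((1 + b') * (1 + z')) := by rw [hz', mul_one]
        _ = (1 + b') * ((1 + b) * (1 + z')) := by ring
        _ = 1 + b' := by rw [h4, mul_one]
    exact add_left_cancel this
  · have h4 : (1 + d') * (1 + θ) = 1 := by
      have : (1 + d') * (1 + θ) - 1 = 0 := hδ0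
      exact sub_eq_zero.1 this
    have : 1 + d = 1 + d' := by
      calc 1 + d = (1 + d) * ((1 + d') * (1 + θ)) := by rw [h4, mul_one]
        _ = (1 + d') * ((1 + d) * (1 + θ)) := by ring
        _ = 1 + d' := by rw [hθ, mul_one]
    exact add_left_cancel this

end Fermat.Agent.FF3.AmiceU
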