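import Mathlib
import Fermat.Agent.FF3.AmiceU.Units

/-!
# FF3 / AmiceU : `n`-th powers in the Amice ring (L1-E, part 4)

* `NF c a b d` : the normal form `c • X^a · (1 + b) · (1 + d)`.
* `const_mul_nf_pow` : `e • (NF cv av bv dv)^n` is again a normal form.
* `eq_of_nf_eq_const_mul_nf_pow` : **`n`-th power criterion** — if `NF c a b d = e • (NF cv av bv dv)^n`
  then `a = n av`, `c = e cv^n`, `1 + b = (1 + bv)^n`, `1 + d = (1 + dv)^n`.
* `exists_root_iff` : an element with attained norm is a constant times an `n`-th power of an element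
  with attained norm iff `n ∣ a` and its plus and minus units are `n`-th powers in their groups.
* `isUnit_ball_iff` : the units of the unit ball `E` are the elements of norm one whose norm is
  attained.
-/

set_option autoImplicit false
set_option linter.unusedSectionVars false

namespace Fermat.Agent.FF3.AmiceU

open Filter Topology
open Fermat.Agent.FF3.Amice Fermat.Agent.FF3.Birkhoff
open scoped Classical

variable {K : Type*} [NormedField K] [IsUltrametricDist K] [CompleteSpace K]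

/-- the normal form `c • X^a · (1 + b) · (1 + d)` -/
noncomputable def NF (c : K) (a : ℤ) (b d : BAmice K) : BAmice K :=
  algebraMap K (BAmice K) c * ((BAmice.X ^ a : (BAmice K)ˣ) : BAmice K) * (1 + b) * (1 + d)

/-- the plus units: `1 + b`, `b` in the plus part, `‖b‖ ≤ 1` -/
def IsPlus (b : BAmice K) : Prop := b ∈ (split K).BP ∧ ‖b‖ ≤ 1

/-- the small minus units: `1 + d`, `d` in the minus part, `‖d‖ < 1` -/
def IsMinus (d : BAmice K) : Prop := d ∈ (split K).BM ∧ ‖d‖ < 1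

theorem IsPlus.pow {b : BAmice K} (hb : IsPlus b) (n : ℕ) : IsPlus ((1 + b) ^ n - 1) :=
  ⟨split_isMul.one_add_pow_sub_one_mem_BP hb.1 n, norm_one_add_pow_sub_one_le le_rfl hb.2 n⟩

theorem IsMinus.pow {d : BAmice K} (hd : IsMinus d) (n : ℕ) : IsMinus ((1 + d) ^ n - 1) :=
  ⟨split_isMul.one_add_pow_sub_one_mem_BM hd.1 n,
    (norm_one_add_pow_sub_one_le hd.2.le le_rfl n).trans_lt hd.2⟩

theorem nf_unique {c c' : K} (hc : c ≠ 0) (hc' : c' ≠ 0) {a a' : ℤ} {b d b' d' : BAmice K}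
    (hb : IsPlus b) (hd : IsMinus d) (hb' : IsPlus b') (hd' : IsMinus d')
    (h : NF c a b d = NF c' a' b' d') : a = a' ∧ c = c' ∧ b = b' ∧ d = d' :=
  factor_unique hc hc' hb.1 hd.1 hb'.1 hd'.1 hb.2 hd.2 hb'.2 hd'.2 h

theorem exists_nf {x : BAmice K} {a : ℤ} (hx : x ≠ 0) (ha : IsAttainedAt x a) :
    ∃ c : K, c ≠ 0 ∧ ‖c‖ = ‖x‖ ∧ ∃ b d, IsPlus b ∧ IsMinus d ∧ x = NF c a b d := by
  obtain ⟨c, hc, hcn, b, hb, hb1, d, hd, hd1, h⟩ := exists_factor hx ha
  exact ⟨c, hc, hcn, b, d, ⟨hb, hb1⟩, ⟨hd, hd1⟩, h⟩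

/-- a constant times the `n`-th power of a normal form is a normal form -/
theorem const_mul_nf_pow (e cv : K) (av : ℤ) (bv dv : BAmice K) (n : ℕ) :
    algebraMap K (BAmice K) e * NF cv av bv dv ^ n
      = NF (e * cv ^ n) ((n : ℤ) * av) ((1 + bv) ^ n - 1) ((1 + dv) ^ n - 1) := by
  have hpow : ((BAmice.X ^ av : (BAmice K)ˣ) : BAmice K) ^ n
      = ((BAmice.X ^ ((n : ℤ) * av) : (BAmice K)ˣ) : BAmice K) := by
    rw [← Units.val_pow_eq_pow_val, ← zpow_natCast, ← zpow_mul, mul_comm]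
  unfold NF
  rw [mul_pow, mul_pow, mul_pow, hpow, map_mul, map_pow]
  ring

/-- **`n`-th power criterion** (necessity, with the exact shape of the root). -/
theorem eq_of_nf_eq_const_mul_nf_pow {c e cv : K} (hc : c ≠ 0) (he : e ≠ 0) (hcv : cv ≠ 0)
    {a av : ℤ} {b d bv dv : BAmice K} (hb : IsPlus b) (hd : IsMinus d) (hbv : IsPlus bv)
    (hdv : IsMinus dv) (n : ℕ)
    (h : NF c a b d = algebraMap K (BAmice K) e * NF cv av bv dv ^ n) :
    a = (n : ℤ) * av ∧ c = e * cv ^ n ∧ 1 + b = (1 + bv) ^ n ∧ 1 + d = (1 + dv) ^ n := by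
  rw [const_mul_nf_pow] at h
  obtain ⟨h1, h2, h3, h4⟩ := nf_unique hc (mul_ne_zero he (pow_ne_zero n hcv)) hb hd
    (hbv.pow n) (hdv.pow n) h
  refine ⟨h1, h2, ?_, ?_⟩
  · rw [h3]; ring
  · rw [h4]; ring

/-- **`n`-th power criterion.**  A normal form `NF c a b d` is a nonzero constant times the `n`-th
power of a normal form iff `n ∣ a` and `1 + b`, `1 + d` are `n`-th powers of a plus unit and of a
small minus unit. -/
theorem exists_root_iff {c : K} (hc : c ≠ 0) {a : ℤ} {b d : BAmice K} (hb : IsPlus b)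
    (hd : IsMinus d) (n : ℕ) :
    (∃ e cv : K, e ≠ 0 ∧ cv ≠ 0 ∧ ∃ (av : ℤ) (bv dv : BAmice K), IsPlus bv ∧ IsMinus dv ∧
        NF c a b d = algebraMap K (BAmice K) e * NF cv av bv dv ^ n)
      ↔ ((n : ℤ) ∣ a ∧ (∃ bv, IsPlus bv ∧ 1 + b = (1 + bv) ^ n) ∧
          ∃ dv, IsMinus dv ∧ 1 + d = (1 + dv) ^ n) := by
  constructor
  · rintro ⟨e, cv, he, hcv, av, bv, dv, hbv, hdv, h⟩
    obtain ⟨h1, -, h3, h4⟩ := eq_of_nf_eq_const_mul_nf_pow hc he hcv hb hd hbv hdv n h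
    exact ⟨⟨av, h1⟩, ⟨bv, hbv, h3⟩, ⟨dv, hdv, h4⟩⟩
  · rintro ⟨⟨av, hav⟩, ⟨bv, hbv, h3⟩, ⟨dv, hdv, h4⟩⟩
    refine ⟨c, 1, hc, one_ne_zero, av, bv, dv, hbv, hdv, ?_⟩
    rw [const_mul_nf_pow, one_pow, mul_one, ← hav]
    unfold NF
    rw [← h3, ← h4]
    congr 2 <;> ring

/-! ### units of the unit ball -/

theorem norm_nf {c : K} {a : ℤ} {b d : BAmice K} (hb : IsPlus b) (hd : IsMinus d) :
    ‖NF c a b d‖ ≤ ‖c‖ := by
  unfold NF
  have hX : ‖((BAmice.X ^ a : (BAmice K)ˣ) : BAmice K)‖ ≤ 1 := by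
    rw [BAmice.norm_le_iff]
    intro n
    rw [BAmice.coe_X_zpow, BAmice.coeff_single]
    split_ifs
    · exact norm_one.le
    · rw [norm_zero]; exact zero_le_one
  have h1 : ‖(1 : BAmice K) + b‖ ≤ 1 := norm_add_le_of_le norm_one.le hb.2
  have h2 : ‖(1 : BAmice K) + d‖ ≤ 1 := norm_add_le_of_le norm_one.le hd.2.le
  have hc : ‖algebraMap K (BAmice K) c‖ = ‖c‖ := norm_algebraMap' (BAmice K) c
  calc ‖algebraMap K (BAmice K) c * ((BAmice.X ^ a : (BAmice K)ˣ) : BAmice K) * (1 + b) * (1 + d)‖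
      ≤ ‖algebraMap K (BAmice K) c‖ * ‖((BAmice.X ^ a : (BAmice K)ˣ) : BAmice K)‖ * ‖1 + b‖
          * ‖1 + d‖ := by
        refine (norm_mul_le _ _).trans (mul_le_mul_of_nonneg_right ?_ (norm_nonneg _))
        refine (norm_mul_le _ _).trans (mul_le_mul_of_nonneg_right ?_ (norm_nonneg _))
        exact norm_mul_le _ _
    _ ≤ ‖c‖ * 1 * 1 * 1 := by
        rw [hc]
        gcongr
    _ = ‖c‖ := by ring

/-- a normal form with `c ≠ 0` is a unit of `BAmice K`; its inverse is a normal form. -/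
theorem exists_nf_inv {c : K} (hc : c ≠ 0) (a : ℤ) {b d : BAmice K} (hb : IsPlus b)
    (hd : IsMinus d) :
    ∃ b' d', IsPlus b' ∧ IsMinus d' ∧ NF c a b d * NF c⁻¹ (-a) b' d' = 1 := by
  obtain ⟨z, hzm, hz1, hz⟩ := exists_inv_pos hb.1 hb.2
  obtain ⟨θ, hθm, hθ1, hθ⟩ := split_isMul.exists_inv_BM hd.1 hd.2
  refine ⟨z, θ, ⟨hzm, hz1⟩, ⟨hθm, hθ1.trans_lt hd.2⟩, ?_⟩
  have hunit : ((BAmice.X ^ a : (BAmice K)ˣ) : BAmice K)
      * ((BAmice.X ^ (-a) : (BAmice K)ˣ) : BAmice K) = 1 := by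
    rw [← Units.val_mul, ← zpow_add, add_neg_cancel, zpow_zero, Units.val_one]
  have hcc : algebraMap K (BAmice K) c * algebraMap K (BAmice K) c⁻¹ = 1 := by
    rw [← map_mul, mul_inv_cancel₀ hc, map_one]
  unfold NF
  calc algebraMap K (BAmice K) c * ((BAmice.X ^ a : (BAmice K)ˣ) : BAmice K) * (1 + b) * (1 + d)
        * (algebraMap K (BAmice K) c⁻¹ * ((BAmice.X ^ (-a) : (BAmice K)ˣ) : BAmice K)
          * (1 + z) * (1 + θ))
      = (algebraMap K (BAmice K) c * algebraMap K (BAmice K) c⁻¹)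
        * (((BAmice.X ^ a : (BAmice K)ˣ) : BAmice K)
          * ((BAmice.X ^ (-a) : (BAmice K)ˣ) : BAmice K))
        * ((1 + b) * (1 + z)) * ((1 + d) * (1 + θ)) := by ring
    _ = 1 := by rw [hcc, hunit, hz, hθ]; ring

/-- **units of the unit ball**: an element `x` with `‖x‖ ≤ 1` has an inverse of norm `≤ 1` iff some
coefficient of `x` has norm one. -/
theorem exists_inv_ball_iff {x : BAmice K} (hx1 : ‖x‖ ≤ 1) :
    (∃ y : BAmice K, ‖y‖ ≤ 1 ∧ x * y = 1) ↔ ∃ n, ‖BAmice.coeff n x‖ = 1 := by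
  constructor
  · rintro ⟨y, hy1, hxy⟩
    by_contra hno
    simp only [not_exists] at hno
    have hlt : ∀ n, ‖BAmice.coeff n x‖ < 1 := fun n =>
      lt_of_le_of_ne ((BAmice.norm_coeff_le n x).trans hx1) (hno n)
    -- the coefficient `0` of `x * y = 1`
    have h0 : BAmice.coeff 0 (x * y) = 1 := by rw [hxy, BAmice.coeff_one, if_pos rfl]
    rw [BAmice.coeff_mul] at h0
    -- all terms have norm `< 1` and tend to `0`, hence the sum has norm `< 1`
    have hsum := BAmice.summable_coeff_mul 0 x y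
    have hterm : ∀ i : ℤ, ‖BAmice.coeff i x * BAmice.coeff (0 - i) y‖ < 1 := by
      intro i
      rw [norm_mul]
      calc ‖BAmice.coeff i x‖ * ‖BAmice.coeff (0 - i) y‖ ≤ ‖BAmice.coeff i x‖ * 1 :=
            mul_le_mul_of_nonneg_left ((BAmice.norm_coeff_le _ y).trans hy1) (norm_nonneg _)
        _ = ‖BAmice.coeff i x‖ := mul_one _
        _ < 1 := hlt i
    have htend := hsum.tendsto_cofinite_zero
    have hfin : {i : ℤ | (1 : ℝ) / 2 ≤ ‖BAmice.coeff i x * BAmice.coeff (0 - i) y‖}.Finite := by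
      have := (tendsto_norm_zero.comp htend).eventually (gt_mem_nhds (by norm_num : (0:ℝ) < 1 / 2))
      rw [Filter.eventually_cofinite] at this
      refine this.subset ?_
      intro n hn
      simpa using hn
    -- a uniform bound `r < 1`
    obtain ⟨r, hr1, hr⟩ : ∃ r : ℝ, r < 1 ∧
        ∀ i : ℤ, ‖BAmice.coeff i x * BAmice.coeff (0 - i) y‖ ≤ r := by
      by_cases hne : hfin.toFinset.Nonempty
      · obtain ⟨i₀, -, hmax⟩ := hfin.toFinset.exists_max_image
          (fun i => ‖BAmice.coeff i x * BAmice.coeff (0 - i) y‖) hne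
        refine ⟨max (1 / 2) ‖BAmice.coeff i₀ x * BAmice.coeff (0 - i₀) y‖,
          max_lt (by norm_num) (hterm i₀), fun i => ?_⟩
        by_cases hi : (1 : ℝ) / 2 ≤ ‖BAmice.coeff i x * BAmice.coeff (0 - i) y‖
        · exact (hmax i (by simpa using hi)).trans (le_max_right _ _)
        · exact (not_le.1 hi).le.trans (le_max_left _ _)
      · refine ⟨1 / 2, by norm_num, fun i => ?_⟩
        by_contra hi
        apply hne
        exact ⟨i, by simpa using (not_le.1 hi).le⟩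
    have hr0 : 0 ≤ r := (norm_nonneg _).trans (hr 0)
    have := IsUltrametricDist.norm_tsum_le_of_forall_le_of_nonneg hr0 hr
    rw [h0, norm_one] at this
    exact absurd this (not_le.2 hr1)
  · rintro ⟨n, hn⟩
    have hx0 : x ≠ 0 := by
      intro h0; rw [h0, map_zero, norm_zero] at hn; exact zero_ne_one hn
    have hxn : ‖x‖ = 1 := le_antisymm hx1 (hn ▸ BAmice.norm_coeff_le n x)
    obtain ⟨a, ha⟩ := exists_isAttainedAt hx0 ⟨n, by rw [hn, hxn]⟩
    obtain ⟨c, hc, hcn, b, d, hb, hd, hxe⟩ := exists_nf hx0 ha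
    obtain ⟨b', d', hb', hd', hinv⟩ := exists_nf_inv hc a hb hd
    refine ⟨NF c⁻¹ (-a) b' d', ?_, by rw [hxe]; exact hinv⟩
    refine (norm_nf hb' hd').trans ?_
    rw [norm_inv, hcn, hxn, inv_one]

end Fermat.Agent.FF3.AmiceU
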