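import Mathlib
import Fermat.Agent.FF3.AmiceU.Power

/-!
# FF3 / AmiceU : the discretely valued case (L1-E, part 5)

If the norm of `K` is discrete (`‖a‖ ∈ ‖ϖ‖^ℤ` for `a ≠ 0`, `0 < ‖ϖ‖ < 1`) then every nonzero element of
`BAmice K` attains its norm, hence has a normal form `c • X^a (1 + b)(1 + d)` and is invertible:
`BAmice K` is a field (`= E[1/ϖ]`, `E` the Amice ring, a complete DVR with uniformiser `ϖ`).
-/

set_option autoImplicit false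
set_option linter.unusedSectionVars false

namespace Fermat.Agent.FF3.AmiceU

open Filter Topology
open Fermat.Agent.FF3.Amice Fermat.Agent.FF3.Birkhoff
open scoped Classical

variable {K : Type*} [NormedField K] [IsUltrametricDist K] [CompleteSpace K]

/-- the norm of `K` is discrete, generated by `‖ϖ‖` -/
def IsDiscreteNorm (ϖ : K) : Prop :=
  0 < ‖ϖ‖ ∧ ‖ϖ‖ < 1 ∧ ∀ a : K, a ≠ 0 → ∃ m : ℤ, ‖a‖ = ‖ϖ‖ ^ m

/-- over a discretely valued field every nonzero element attains its norm -/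
theorem exists_norm_coeff_eq_of_discrete {ϖ : K} (hϖ : IsDiscreteNorm ϖ) {x : BAmice K}
    (hx : x ≠ 0) : ∃ n, ‖BAmice.coeff n x‖ = ‖x‖ := by
  obtain ⟨h0, h1, hd⟩ := hϖ
  have hpos : 0 < ‖x‖ := norm_pos_iff.2 hx
  -- a coefficient of norm `> ‖x‖ ‖ϖ‖`
  obtain ⟨n₀, hn₀⟩ : ∃ n₀, ‖x‖ * ‖ϖ‖ < ‖BAmice.coeff n₀ x‖ := by
    by_contra hno
    simp only [not_exists, not_lt] at hno
    have : ‖x‖ ≤ ‖x‖ * ‖ϖ‖ := BAmice.norm_le_iff.2 hno
    have h2 : ‖x‖ * ‖ϖ‖ < ‖x‖ * 1 := mul_lt_mul_of_pos_left h1 hpos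
    rw [mul_one] at h2
    exact absurd this (not_le.2 h2)
  have hc0 : BAmice.coeff n₀ x ≠ 0 := by
    intro h; rw [h, norm_zero] at hn₀
    exact absurd hn₀ (not_lt.2 (mul_nonneg hpos.le h0.le))
  obtain ⟨m, hm⟩ := hd _ hc0
  refine ⟨n₀, le_antisymm (BAmice.norm_coeff_le n₀ x) ?_⟩
  rw [BAmice.norm_le_iff]
  intro n
  by_cases hcn : BAmice.coeff n x = 0
  · rw [hcn, norm_zero]; exact norm_nonneg _
  obtain ⟨j, hj⟩ := hd _ hcn
  rw [hj, hm]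
  by_contra hlt
  rw [not_le] at hlt
  -- `‖ϖ‖^m < ‖ϖ‖^j` forces `j ≤ m - 1`
  have hjm : j < m := by
    by_contra hge
    rw [not_lt] at hge
    exact absurd hlt (not_lt.2 (zpow_le_zpow_right_of_le_one₀ h0 h1.le hge))
  have hj1 : ‖ϖ‖ ^ (m - 1) ≤ ‖ϖ‖ ^ j :=
    zpow_le_zpow_right_of_le_one₀ h0 h1.le (by omega)
  have hm1 : ‖ϖ‖ ^ (m - 1) = ‖ϖ‖ ^ m / ‖ϖ‖ := by
    rw [zpow_sub_one₀ h0.ne', div_eq_mul_inv]
  have h3 : ‖x‖ < ‖ϖ‖ ^ (m - 1) := by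
    rw [hm1, lt_div_iff₀ h0, ← hm]
    exact hn₀
  have h4 : ‖ϖ‖ ^ j ≤ ‖x‖ := hj ▸ BAmice.norm_coeff_le n x
  exact absurd (h3.trans_le (hj1.trans h4)) (lt_irrefl _)

/-- over a discretely valued field every nonzero element has a normal form -/
theorem exists_nf_of_discrete {ϖ : K} (hϖ : IsDiscreteNorm ϖ) {x : BAmice K} (hx : x ≠ 0) :
    ∃ (c : K) (a : ℤ) (b d : BAmice K), c ≠ 0 ∧ ‖c‖ = ‖x‖ ∧ IsAttainedAt x a ∧ IsPlus b ∧ IsMinus d ∧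
      x = NF c a b d := by
  obtain ⟨a, ha⟩ := exists_isAttainedAt hx (exists_norm_coeff_eq_of_discrete hϖ hx)
  obtain ⟨c, hc, hcn, b, d, hb, hd, h⟩ := exists_nf hx ha
  exact ⟨c, a, b, d, hc, hcn, ha, hb, hd, h⟩

/-- over a discretely valued field, `BAmice K` is a field: every nonzero element is invertible, with
inverse of norm `‖x‖⁻¹` -/
theorem exists_inv_of_discrete {ϖ : K} (hϖ : IsDiscreteNorm ϖ) {x : BAmice K} (hx : x ≠ 0) :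
    ∃ y : BAmice K, x * y = 1 ∧ ‖y‖ ≤ ‖x‖⁻¹ := by
  obtain ⟨c, a, b, d, hc, hcn, -, hb, hd, h⟩ := exists_nf_of_discrete hϖ hx
  obtain ⟨b', d', hb', hd', hinv⟩ := exists_nf_inv hc a hb hd
  refine ⟨NF c⁻¹ (-a) b' d', by rw [h]; exact hinv, ?_⟩
  refine (norm_nf hb' hd').trans ?_
  rw [norm_inv, hcn]

/-- the norm of `BAmice K` is multiplicative when `K` is discretely valued -/
theorem norm_mul_of_discrete {ϖ : K} (hϖ : IsDiscreteNorm ϖ) (x y : BAmice K) :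
    ‖x * y‖ = ‖x‖ * ‖y‖ := by
  by_cases hx : x = 0
  · rw [hx, zero_mul, norm_zero, zero_mul]
  refine le_antisymm (norm_mul_le x y) ?_
  obtain ⟨z, hz, hzn⟩ := exists_inv_of_discrete hϖ hx
  have hpos : 0 < ‖x‖ := norm_pos_iff.2 hx
  have : y = z * (x * y) := by
    calc y = (x * z) * y := by rw [hz, one_mul]
      _ = z * (x * y) := by ring
  have h2 : ‖y‖ ≤ ‖x‖⁻¹ * ‖x * y‖ := by
    calc ‖y‖ = ‖z * (x * y)‖ := by rw [← this]
      _ ≤ ‖z‖ * ‖x * y‖ := norm_mul_le _ _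
      _ ≤ ‖x‖⁻¹ * ‖x * y‖ := mul_le_mul_of_nonneg_right hzn (norm_nonneg _)
  calc ‖x‖ * ‖y‖ ≤ ‖x‖ * (‖x‖⁻¹ * ‖x * y‖) := mul_le_mul_of_nonneg_left h2 hpos.le
    _ = ‖x * y‖ := by rw [← mul_assoc, mul_inv_cancel₀ hpos.ne', one_mul]

end Fermat.Agent.FF3.AmiceU
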