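import Mathlib
import Fermat.Agent.FF3.AmiceU.Disc

/-!
# FF3 / AmiceU : roots of constants, roots of unity, and the disc root lemma (§2e, part 1)

`K` discretely normed (`IsDiscreteNorm ϖ`), `n : ℕ` with `(n : K) ≠ 0`.

* `noZeroDivisors_of_discrete` : `BAmice K` has no zero divisors.
* `eq_zero_of_one_add_pow_eq_one` : a plus unit or a minus unit which is an `n`-th root of `1` is `1`.
* `exists_eq_algebraMap_of_pow_eq` : **an element whose `n`-th power is a nonzero constant is a
  constant** (`n ≠ 0`); `exists_eq_algebraMap_of_pow_eq_one` : `n`-th roots of unity are constants.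
* `ofPS_injective`, `ofPS_C`.
* `disc_root` : **disc root lemma (L11).**  If an integral power series `f` with unit constant term
  becomes a constant times an `n`-th power in the Amice ring, then `f = C c₀ * g ^ n` with `g` an
  integral power series with constant term `1` (`c₀` the constant term of `f`).
-/

set_option autoImplicit false
set_option linter.unusedSectionVars false

namespace Fermat.Agent.FF3.AmiceU

open Filter Topology
open Fermat.Agent.FF3.Amice Fermat.Agent.FF3.Birkhoff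
open scoped Classical

variable {K : Type*} [NormedField K] [IsUltrametricDist K] [CompleteSpace K]

theorem noZeroDivisors_of_discrete {ϖ : K} (hϖ : IsDiscreteNorm ϖ) {x y : BAmice K}
    (h : x * y = 0) : x = 0 ∨ y = 0 := by
  have := norm_mul_of_discrete hϖ x y
  rw [h, norm_zero] at this
  rcases mul_eq_zero.1 this.symm with h1 | h1
  · exact Or.inl (norm_eq_zero.1 h1)
  · exact Or.inr (norm_eq_zero.1 h1)

theorem nf_zero_zero (c : K) : NF c 0 (0 : BAmice K) 0 = algebraMap K (BAmice K) c := by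
  unfold NF
  rw [zpow_zero, Units.val_one, add_zero, mul_one, mul_one, mul_one]

theorem isPlus_zero : IsPlus (0 : BAmice K) := ⟨(split K).BP.zero_mem, by rw [norm_zero]; exact zero_le_one⟩
theorem isMinus_zero : IsMinus (0 : BAmice K) :=
  ⟨(split K).BM.zero_mem, by rw [norm_zero]; exact zero_lt_one⟩

/-- the constant coefficient of a power of `1 + b`, `b` without constant term -/
theorem coeff_zero_one_add_pow {b : BAmice K} (hb : b ∈ (split K).BP ∨ b ∈ (split K).BM) (i : ℕ) :
    BAmice.coeff 0 ((1 + b) ^ i) = 1 := by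
  have h0 : BAmice.coeff 0 ((1 + b) ^ i - 1) = 0 := by
    rcases hb with hb | hb
    · exact mem_BP_iff.1 (split_isMul.one_add_pow_sub_one_mem_BP hb i) 0 (lt_irrefl 0)
    · exact mem_BM_iff.1 (split_isMul.one_add_pow_sub_one_mem_BM hb i) 0 (lt_irrefl 0)
  rw [map_sub, coeff_one, if_pos rfl, sub_eq_zero] at h0
  exact h0

/-- a plus unit or minus unit which is an `n`-th root of unity is trivial -/
theorem eq_zero_of_one_add_pow_eq_one {ϖ : K} (hϖ : IsDiscreteNorm ϖ) {n : ℕ} (hn : (n : K) ≠ 0)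
    {b : BAmice K} (hb : b ∈ (split K).BP ∨ b ∈ (split K).BM) (h : (1 + b) ^ n = 1) : b = 0 := by
  have hgeom : (1 + b - 1) * ∑ i ∈ Finset.range n, (1 + b) ^ i = (1 + b) ^ n - 1 :=
    mul_geom_sum (1 + b) n
  rw [h, sub_self, add_sub_cancel_left] at hgeom
  rcases noZeroDivisors_of_discrete hϖ hgeom with h1 | h1
  · exact h1
  · exfalso
    have h2 := congrArg (BAmice.coeff 0) h1
    rw [map_sum, map_zero] at h2
    have h3 : ∑ i ∈ Finset.range n, BAmice.coeff 0 ((1 + b) ^ i) = (n : K) := by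
      rw [Finset.sum_congr rfl (fun i _ => coeff_zero_one_add_pow hb i)]
      simp
    rw [h3] at h2
    exact hn h2

/-- **an element whose `n`-th power is a nonzero constant is a constant** -/
theorem exists_eq_algebraMap_of_pow_eq {ϖ : K} (hϖ : IsDiscreteNorm ϖ) {n : ℕ} (hn0 : n ≠ 0)
    (hn : (n : K) ≠ 0) {x : BAmice K} {e : K} (he : e ≠ 0)
    (h : x ^ n = algebraMap K (BAmice K) e) :
    ∃ c : K, c ^ n = e ∧ x = algebraMap K (BAmice K) c := by
  have hx : x ≠ 0 := by
    intro h0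
    rw [h0, zero_pow hn0] at h
    have := congrArg (BAmice.coeff 0) h
    rw [map_zero, BAmice.coeff_algebraMap, if_pos rfl] at this
    exact he this.symm
  obtain ⟨c, a, b, d, hc, -, -, hb, hd, hxe⟩ := exists_nf_of_discrete hϖ hx
  have h1 : NF e 0 (0 : BAmice K) 0
      = NF (1 * c ^ n) ((n : ℤ) * a) ((1 + b) ^ n - 1) ((1 + d) ^ n - 1) := by
    rw [← const_mul_nf_pow, ← hxe, map_one, one_mul, h, nf_zero_zero]
  obtain ⟨p1, p2, p3, p4⟩ := nf_unique he (mul_ne_zero one_ne_zero (pow_ne_zero n hc))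
    isPlus_zero isMinus_zero (hb.pow n) (hd.pow n) h1
  have ha : a = 0 := by
    rcases mul_eq_zero.1 p1.symm with h' | h'
    · exact absurd (by exact_mod_cast h') hn0
    · exact h'
  have hb0 : b = 0 := eq_zero_of_one_add_pow_eq_one hϖ hn (Or.inl hb.1) (sub_eq_zero.1 p3.symm)
  have hd0 : d = 0 := eq_zero_of_one_add_pow_eq_one hϖ hn (Or.inr hd.1) (sub_eq_zero.1 p4.symm)
  refine ⟨c, by rw [p2, one_mul], ?_⟩
  rw [hxe, ha, hb0, hd0, nf_zero_zero]

/-- `n`-th roots of unity of the Amice ring are constants -/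
theorem exists_eq_algebraMap_of_pow_eq_one {ϖ : K} (hϖ : IsDiscreteNorm ϖ) {n : ℕ} (hn0 : n ≠ 0)
    (hn : (n : K) ≠ 0) {x : BAmice K} (h : x ^ n = 1) :
    ∃ c : K, c ^ n = 1 ∧ x = algebraMap K (BAmice K) c :=
  exists_eq_algebraMap_of_pow_eq hϖ hn0 hn one_ne_zero (by rw [h, map_one])

/-! ### power series -/

theorem ofPS_injective : Function.Injective (ofPS : PowerSeries (ball K) → BAmice K) := by
  intro f g h
  ext m
  have := congrArg (BAmice.coeff (m : ℤ)) h
  rw [coeff_ofPS_natCast, coeff_ofPS_natCast] at this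
  exact this

theorem ofPS_C (c : ball K) : ofPS (PowerSeries.C c) = algebraMap K (BAmice K) (c : K) := by
  apply BAmice.ext; intro n
  rw [BAmice.coeff_algebraMap]
  rcases lt_or_ge n 0 with hn | hn
  · rw [coeff_ofPS_neg _ hn, if_neg hn.ne]
  · obtain ⟨N, rfl⟩ := Int.eq_ofNat_of_zero_le hn
    rw [coeff_ofPS_natCast, PowerSeries.coeff_C]
    by_cases hN : N = 0
    · rw [if_pos hN, if_pos (by exact_mod_cast hN)]
    · rw [if_neg hN, if_neg (by exact_mod_cast hN)]; rfl

/-- **Disc root lemma (L11).** -/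
theorem disc_root {f : PowerSeries (ball K)}
    (hf : ‖((PowerSeries.constantCoeff f : ball K) : K)‖ = 1) {e : K} (he : e ≠ 0)
    {v : BAmice K} (hv0 : v ≠ 0) (hv : ∃ m, ‖BAmice.coeff m v‖ = ‖v‖) (n : ℕ)
    (h : ofPS f = algebraMap K (BAmice K) e * v ^ n) :
    ∃ g : PowerSeries (ball K), PowerSeries.constantCoeff g = 1 ∧
      f = PowerSeries.C (PowerSeries.constantCoeff f) * g ^ n := by
  set c₀ : ball K := PowerSeries.constantCoeff f with hc₀
  have hc₀0 : (c₀ : K) ≠ 0 := by
    intro h0; rw [h0, norm_zero] at hf; exact zero_ne_one hf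
  -- the plus unit `f / c₀`
  set b : BAmice K := algebraMap K (BAmice K) (c₀ : K)⁻¹ * ofPS f - 1 with hb
  have hcoeff : ∀ m, BAmice.coeff m (algebraMap K (BAmice K) (c₀ : K)⁻¹ * ofPS f)
      = (c₀ : K)⁻¹ * BAmice.coeff m (ofPS f) := fun m => coeff_algebraMap_mul _ _ m
  have hb_mem : b ∈ (split K).BP := by
    rw [mem_BP_iff]
    intro m hm
    rw [hb, map_sub, hcoeff, coeff_one]
    rcases lt_or_eq_of_le (not_lt.1 hm) with hneg | hzero
    · rw [coeff_ofPS_neg _ hneg, mul_zero, if_neg hneg.ne, sub_zero]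
    · rw [hzero, if_pos rfl]
      have := coeff_ofPS_natCast f 0
      rw [Nat.cast_zero] at this
      rw [this, PowerSeries.coeff_zero_eq_constantCoeff_apply, inv_mul_cancel₀ hc₀0, sub_self]
  have hb1 : ‖b‖ ≤ 1 := by
    refine norm_sub_le_of_le ?_ norm_one.le
    calc ‖algebraMap K (BAmice K) (c₀ : K)⁻¹ * ofPS f‖
        ≤ ‖algebraMap K (BAmice K) (c₀ : K)⁻¹‖ * ‖ofPS f‖ := norm_mul_le _ _
      _ ≤ 1 * 1 := by
          refine mul_le_mul ?_ (norm_ofPS_le f) (norm_nonneg _) zero_le_one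
          rw [norm_algebraMap', norm_inv, hf, inv_one]
      _ = 1 := one_mul 1
  have hIb : IsPlus b := ⟨hb_mem, hb1⟩
  have hfe : ofPS f = NF (c₀ : K) 0 b 0 := by
    unfold NF
    rw [zpow_zero, Units.val_one, mul_one, add_zero, mul_one, hb, add_sub_cancel, ← mul_assoc,
      ← map_mul, mul_inv_cancel₀ hc₀0, map_one, one_mul]
  -- the normal form of `v`
  obtain ⟨av, hav⟩ := exists_isAttainedAt hv0 hv
  obtain ⟨cv, hcv, -, bv, dv, hbv, hdv, hve⟩ := exists_nf hv0 hav
  rw [hfe, hve] at h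
  obtain ⟨-, -, h3, -⟩ := eq_of_nf_eq_const_mul_nf_pow hc₀0 he hcv hIb isMinus_zero hbv hdv n h
  -- `1 + bv` is an integral power series
  have hsupp : SuppIn (1 + bv) (fun m => 0 ≤ m) := by
    refine suppIn_add (suppIn_one le_rfl) ?_
    intro m hm
    exact mem_BP_iff.1 hbv.1 m (fun h' => hm h'.le)
  obtain ⟨g, hg⟩ := exists_ofPS_eq hsupp (norm_add_le_of_le norm_one.le hbv.2)
  have hg0 : PowerSeries.constantCoeff g = 1 := by
    have := coeff_ofPS_natCast g 0
    rw [hg, Nat.cast_zero, coeff_one_add_of_mem_BP hbv.1, if_pos rfl] at this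
    rw [← PowerSeries.coeff_zero_eq_constantCoeff_apply]
    exact Subtype.ext this.symm
  refine ⟨g, hg0, ofPS_injective ?_⟩
  rw [map_mul, map_pow, ofPS_C, hg, ← h3, hfe]
  unfold NF
  rw [zpow_zero, Units.val_one, mul_one, add_zero, mul_one]

end Fermat.Agent.FF3.AmiceU
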