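import Mathlib
import Fermat.Agent.FF3.AmiceU.Roots

/-!
# FF3 / AmiceU : units and the root lemma of the node ring, axiomatically (§2e, part 2)

`NodeAx π R` packages what is needed from the node ring `R = NodeRing[1/ϖ]` (bounded functions on
the open annulus `‖π‖ < ‖X‖ < 1`) and from its two expansions
`a1 : R → E_X[1/ϖ] = BAmice K` (in `X`) and `a2 : R → E_Y[1/ϖ] = BAmice K` (in `Y = π/X`):

* `a1`, `a2` are injective ring homomorphisms, compatible with the constants `cR : K →+* R`;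
* `Xp a = X^a` with `a1 (X^a) = X^a`, `a2 (X^a) = π^a • X^(-a)`;
* `plus` : a plus unit `1 + b` of `E_X` is `a1 r` with `a2 r` a small minus unit of `E_Y`;
* `minus` : if `a1 r = 1 + d` is a small minus unit of `E_X`, then `a2 r - 1` has exponents `> 0` only;
* `lift_plus` : a plus unit `1 + b'` of `E_Y` is `a2 r` with `a1 r` a small minus unit of `E_X`.

For a discretely normed `K`:

* `NodeAx.unit_structure` : **(UNIT)** a unit `f` of `R` has `a1 f = c • X^a (1 + b)(1 + d)` with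
  `1 + b` a plus unit, `1 + d = a1 rd` a small minus unit and `a2 rd` a PLUS UNIT of `E_Y`
  (i.e. `f = c X^a (1 + a(X)) (1 + b(Y))` with integral `a`, `b`).
* `NodeAx.root_lemma` : **ROOT LEMMA (B-ii)** if `a1 f` and `a2 f` are constants times `n`-th powers,
  then `f = cR c * v ^ n` with `v` a unit of `R`; `root_lemma_literal` : the shape of `Glue.Node`.
* `NodeAx.root_unique` : the root is unique up to a constant.
-/

set_option autoImplicit false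
set_option linter.unusedSectionVars false

namespace Fermat.Agent.FF3.AmiceU

open Filter Topology
open Fermat.Agent.FF3.Amice Fermat.Agent.FF3.Birkhoff
open scoped Classical

variable {K : Type*} [NormedField K] [IsUltrametricDist K] [CompleteSpace K]

/-- the axioms of the node ring with its two expansions into the Amice ring -/
structure NodeAx (π : K) (R : Type*) [CommRing R] where
  /-- the expansion in `X` -/
  a1 : R →+* BAmice K
  /-- the expansion in `Y = π / X` -/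
  a2 : R →+* BAmice K
  a1_inj : Function.Injective a1
  a2_inj : Function.Injective a2
  /-- the constants -/
  cR : K →+* R
  a1_cR : ∀ c : K, a1 (cR c) = algebraMap K (BAmice K) c
  a2_cR : ∀ c : K, a2 (cR c) = algebraMap K (BAmice K) c
  /-- the powers of the coordinate `X` -/
  Xp : ℤ → R
  a1_Xp : ∀ a : ℤ, a1 (Xp a) = ((BAmice.X ^ a : (BAmice K)ˣ) : BAmice K)
  a2_Xp : ∀ a : ℤ, a2 (Xp a)
    = algebraMap K (BAmice K) (π ^ a) * ((BAmice.X ^ (-a) : (BAmice K)ˣ) : BAmice K)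
  plus : ∀ b : BAmice K, IsPlus b → ∃ r : R, a1 r = 1 + b ∧ ∃ d, IsMinus d ∧ a2 r = 1 + d
  minus : ∀ (r : R) (d : BAmice K), IsMinus d → a1 r = 1 + d →
    SuppIn (a2 r - 1) (fun n => 0 < n)
  lift_plus : ∀ b' : BAmice K, IsPlus b' →
    ∃ (r : R) (d : BAmice K), IsMinus d ∧ a1 r = 1 + d ∧ a2 r = 1 + b'

theorem exists_plus_inv {b : BAmice K} (hb : IsPlus b) :
    ∃ z, IsPlus z ∧ (1 + b) * (1 + z) = 1 := by
  obtain ⟨z, hz, hz1, h⟩ := exists_inv_pos hb.1 hb.2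
  exact ⟨z, ⟨hz, hz1⟩, h⟩

theorem X_zpow_mul_neg (a : ℤ) : ((BAmice.X ^ a : (BAmice K)ˣ) : BAmice K)
    * ((BAmice.X ^ (-a) : (BAmice K)ˣ) : BAmice K) = 1 := by
  rw [← Units.val_mul, ← zpow_add, add_neg_cancel, zpow_zero, Units.val_one]

namespace NodeAx

variable {π : K} {R : Type*} [CommRing R] (ax : NodeAx π R)

/-- **(UNIT)**: the structure of the units of the node ring. -/
theorem unit_structure {ϖ : K} (hϖ : IsDiscreteNorm ϖ) {f g : R} (hfg : f * g = 1) :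
    ∃ (c : K) (a : ℤ) (b d b' : BAmice K) (rb rd : R), c ≠ 0 ∧ IsPlus b ∧ IsMinus d ∧ IsPlus b' ∧
      ax.a1 f = NF c a b d ∧ ax.a1 rb = 1 + b ∧ ax.a1 rd = 1 + d ∧ ax.a2 rd = 1 + b' ∧
      f = ax.cR c * ax.Xp a * rb * rd := by
  have hnt : Nontrivial (BAmice K) := NormOneClass.nontrivial
  have hfgE : ax.a1 f * ax.a1 g = 1 := by rw [← map_mul, hfg, map_one]
  have hf0 : ax.a1 f ≠ 0 := by
    intro h0; rw [h0, zero_mul] at hfgE; exact zero_ne_one hfgE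
  obtain ⟨c, a, b, d, hc, -, -, hb, hd, hfe⟩ := exists_nf_of_discrete hϖ hf0
  obtain ⟨z, hz, hbz⟩ := exists_plus_inv hb
  obtain ⟨θ, hθm, hθ1, hdθ⟩ := split_isMul.exists_inv_BM hd.1 hd.2
  have hθ : IsMinus θ := ⟨hθm, hθ1.trans_lt hd.2⟩
  obtain ⟨rb, hrb, -⟩ := ax.plus b hb
  obtain ⟨rz, hrz, -⟩ := ax.plus z hz
  -- `w = c X^a (1 + b)` and its inverse, in `R`
  set w : R := ax.cR c * ax.Xp a * rb with hw
  set w' : R := ax.cR c⁻¹ * ax.Xp (-a) * rz with hw'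
  have hcc : algebraMap K (BAmice K) c * algebraMap K (BAmice K) c⁻¹ = 1 := by
    rw [← map_mul, mul_inv_cancel₀ hc, map_one]
  have ha1w : ax.a1 w = algebraMap K (BAmice K) c * ((BAmice.X ^ a : (BAmice K)ˣ) : BAmice K)
      * (1 + b) := by
    rw [hw, map_mul, map_mul, ax.a1_cR, ax.a1_Xp, hrb]
  have ha1w' : ax.a1 w' = algebraMap K (BAmice K) c⁻¹
      * ((BAmice.X ^ (-a) : (BAmice K)ˣ) : BAmice K) * (1 + z) := by
    rw [hw', map_mul, map_mul, ax.a1_cR, ax.a1_Xp, hrz]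
  have hww' : w * w' = 1 := by
    apply ax.a1_inj
    rw [map_mul, ha1w, ha1w', map_one]
    calc algebraMap K (BAmice K) c * ((BAmice.X ^ a : (BAmice K)ˣ) : BAmice K) * (1 + b)
          * (algebraMap K (BAmice K) c⁻¹ * ((BAmice.X ^ (-a) : (BAmice K)ˣ) : BAmice K) * (1 + z))
        = (algebraMap K (BAmice K) c * algebraMap K (BAmice K) c⁻¹)
          * (((BAmice.X ^ a : (BAmice K)ˣ) : BAmice K)
            * ((BAmice.X ^ (-a) : (BAmice K)ˣ) : BAmice K)) * ((1 + b) * (1 + z)) := by ring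
      _ = 1 := by rw [hcc, X_zpow_mul_neg, hbz]; ring
  have hfw : ax.a1 f = ax.a1 w * (1 + d) := by rw [hfe, ha1w]; rfl
  -- `rd` with `a1 rd = 1 + d` and `rθ` with `a1 rθ = 1 + θ`
  set rd : R := f * w' with hrd
  set rθ : R := w * g with hrθ
  have ha1rd : ax.a1 rd = 1 + d := by
    rw [hrd, map_mul, hfw]
    calc ax.a1 w * (1 + d) * ax.a1 w' = (ax.a1 w * ax.a1 w') * (1 + d) := by ring
      _ = 1 + d := by rw [← map_mul, hww', map_one, one_mul]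
  have hrdθ : rd * rθ = 1 := by
    calc rd * rθ = (f * g) * (w * w') := by rw [hrd, hrθ]; ring
      _ = 1 := by rw [hfg, hww', one_mul]
  have ha1rθ : ax.a1 rθ = 1 + θ := by
    have h1 : (1 + d) * ax.a1 rθ = 1 := by rw [← ha1rd, ← map_mul, hrdθ, map_one]
    calc ax.a1 rθ = ((1 + d) * (1 + θ)) * ax.a1 rθ := by rw [hdθ, one_mul]
      _ = (1 + θ) * ((1 + d) * ax.a1 rθ) := by ring
      _ = 1 + θ := by rw [h1, mul_one]
  -- the images under `a2`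
  set y : BAmice K := ax.a2 rd with hy
  set y' : BAmice K := ax.a2 rθ with hy'
  have hyy' : y * y' = 1 := by rw [hy, hy', ← map_mul, hrdθ, map_one]
  have hsupp : SuppIn (y - 1) (fun n => 0 < n) := ax.minus rd d hd ha1rd
  have hsupp' : SuppIn (y' - 1) (fun n => 0 < n) := ax.minus rθ θ hθ ha1rθ
  have hy'1 : 1 ≤ ‖y'‖ := by
    have h0 : BAmice.coeff 0 y' = 1 := by
      have := hsupp' 0 (lt_irrefl 0)
      rw [map_sub, coeff_one, if_pos rfl, sub_eq_zero] at this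
      exact this
    calc (1 : ℝ) = ‖BAmice.coeff 0 y'‖ := by rw [h0, norm_one]
      _ ≤ ‖y'‖ := BAmice.norm_coeff_le 0 y'
  have hy1 : ‖y‖ ≤ 1 := by
    have hmul := norm_mul_of_discrete hϖ y y'
    rw [hyy', norm_one] at hmul
    by_contra hlt
    rw [not_le] at hlt
    have : (1 : ℝ) < ‖y‖ * ‖y'‖ := by
      calc (1 : ℝ) < ‖y‖ := hlt
        _ = ‖y‖ * 1 := (mul_one _).symm
        _ ≤ ‖y‖ * ‖y'‖ := mul_le_mul_of_nonneg_left hy'1 (norm_nonneg _)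
    rw [← hmul] at this
    exact lt_irrefl _ this
  have hb' : IsPlus (y - 1) := ⟨mem_BP_iff.2 hsupp, norm_sub_le_of_le hy1 norm_one.le⟩
  refine ⟨c, a, b, d, y - 1, rb, rd, hc, hb, hd, hb', hfe, hrb, ha1rd, by rw [add_sub_cancel], ?_⟩
  -- `f = w * rd`
  calc f = f * (w' * w) := by rw [mul_comm w' w, hww', mul_one]
    _ = w * (f * w') := by ring
    _ = ax.cR c * ax.Xp a * rb * rd := by rw [hw, hrd]

/-- **ROOT LEMMA (B-ii).** -/
theorem root_lemma {ϖ : K} (hϖ : IsDiscreteNorm ϖ) (hπ : π ≠ 0) {f g : R} (hfg : f * g = 1)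
    (n : ℕ) {e₁ e₂ : K} (he₁ : e₁ ≠ 0) (he₂ : e₂ ≠ 0) {v₁ v₂ : BAmice K} (hv₁ : v₁ ≠ 0)
    (hv₂ : v₂ ≠ 0) (h₁ : ax.a1 f = algebraMap K (BAmice K) e₁ * v₁ ^ n)
    (h₂ : ax.a2 f = algebraMap K (BAmice K) e₂ * v₂ ^ n) :
    ∃ (c : K) (v v' : R), c ≠ 0 ∧ v * v' = 1 ∧ f = ax.cR c * v ^ n := by
  obtain ⟨c, a, b, d, b', rb, rd, hc, hb, hd, hb', hfe, hrb, hrd1, hrd2, hfR⟩ :=
    ax.unit_structure hϖ hfg
  -- the `E_X` side
  obtain ⟨c₁, a₁, b₁, d₁, hc₁, -, -, hb₁, hd₁, hv₁e⟩ := exists_nf_of_discrete hϖ hv₁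
  have hX := h₁
  rw [hfe, hv₁e] at hX
  obtain ⟨ha, -, hbpow, -⟩ := eq_of_nf_eq_const_mul_nf_pow hc he₁ hc₁ hb hd hb₁ hd₁ n hX
  -- `a2 f` as a normal form
  obtain ⟨rb0, hrb0, d'', hd'', hrb0'⟩ := ax.plus b hb
  have hrbeq : rb = rb0 := ax.a1_inj (by rw [hrb, hrb0])
  have hτf : ax.a2 f = NF (c * π ^ a) (-a) b' d'' := by
    rw [hfR, map_mul, map_mul, map_mul, ax.a2_cR, ax.a2_Xp, hrbeq, hrb0', hrd2]
    unfold NF
    rw [map_mul]
    ring
  -- the `E_Y` side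
  obtain ⟨c₂, a₂, b₂, d₂, hc₂, -, -, hb₂, hd₂, hv₂e⟩ := exists_nf_of_discrete hϖ hv₂
  have hY := h₂
  rw [hτf, hv₂e] at hY
  obtain ⟨-, -, hb'pow, -⟩ := eq_of_nf_eq_const_mul_nf_pow
    (mul_ne_zero hc (zpow_ne_zero a hπ)) he₂ hc₂ hb' hd'' hb₂ hd₂ n hY
  -- lift the `E_Y` root of the minus unit
  obtain ⟨rδ, δ, hδ, hrδ1, hrδ2⟩ := ax.lift_plus b₂ hb₂
  have hδpow : rδ ^ n = rd := by
    apply ax.a2_inj
    rw [map_pow, hrδ2, hrd2, hb'pow]
  -- inverses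
  obtain ⟨z₁, hz₁, hbz₁⟩ := exists_plus_inv hb₁
  obtain ⟨z₂, hz₂, hbz₂⟩ := exists_plus_inv hb₂
  obtain ⟨rδ', δ', hδ', hrδ'1, hrδ'2⟩ := ax.lift_plus z₂ hz₂
  have hδδ' : rδ * rδ' = 1 := by
    apply ax.a2_inj
    rw [map_mul, hrδ2, hrδ'2, hbz₂, map_one]
  obtain ⟨rb₁, hrb₁, -⟩ := ax.plus b₁ hb₁
  obtain ⟨rz₁, hrz₁, -⟩ := ax.plus z₁ hz₁
  have hbb : rb₁ * rz₁ = 1 := by
    apply ax.a1_inj
    rw [map_mul, hrb₁, hrz₁, hbz₁, map_one]
  have hXX : ax.Xp a₁ * ax.Xp (-a₁) = 1 := by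
    apply ax.a1_inj
    rw [map_mul, ax.a1_Xp, ax.a1_Xp, X_zpow_mul_neg, map_one]
  -- the root
  set v : R := ax.Xp a₁ * rb₁ * rδ with hv
  set v' : R := ax.Xp (-a₁) * rz₁ * rδ' with hv'
  have hvv' : v * v' = 1 := by
    calc v * v' = (ax.Xp a₁ * ax.Xp (-a₁)) * (rb₁ * rz₁) * (rδ * rδ') := by rw [hv, hv']; ring
      _ = 1 := by rw [hXX, hbb, hδδ']; ring
  refine ⟨c, v, v', hc, hvv', ?_⟩
  have hXpow : ax.Xp a₁ ^ n = ax.Xp a := by
    apply ax.a1_inj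
    rw [map_pow, ax.a1_Xp, ax.a1_Xp, ← Units.val_pow_eq_pow_val, ← zpow_natCast, ← zpow_mul,
      mul_comm, ← ha]
  have hbpow' : rb₁ ^ n = rb := by
    apply ax.a1_inj
    rw [map_pow, hrb₁, hrb, hbpow]
  rw [hv, mul_pow, mul_pow, hXpow, hbpow', hδpow, hfR]
  ring

/-- **uniqueness of the root up to `n`-th roots of constants**: if `v ^ n = c • w ^ n` with `w` a unit
of `R`, then `v = ζ • w` for a constant `ζ` with `ζ ^ n = c`. -/
theorem root_unique {ϖ : K} (hϖ : IsDiscreteNorm ϖ) {n : ℕ} (hn0 : n ≠ 0) (hn : (n : K) ≠ 0)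
    {v w w' : R} (hww' : w * w' = 1) {c : K} (hc : c ≠ 0) (h : v ^ n = ax.cR c * w ^ n) :
    ∃ ζ : K, ζ ^ n = c ∧ v = ax.cR ζ * w := by
  have h1 : (v * w') ^ n = ax.cR c := by
    calc (v * w') ^ n = v ^ n * w' ^ n := mul_pow _ _ _
      _ = ax.cR c * (w * w') ^ n := by rw [h, mul_pow]; ring
      _ = ax.cR c := by rw [hww', one_pow, mul_one]
  have hx : ax.a1 (v * w') ^ n = algebraMap K (BAmice K) c := by
    rw [← map_pow, h1, ax.a1_cR]
  obtain ⟨ζ, hζ, hxζ⟩ := exists_eq_algebraMap_of_pow_eq hϖ hn0 hn hc hx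
  refine ⟨ζ, hζ, ?_⟩
  have h3 : v * w' = ax.cR ζ := ax.a1_inj (by rw [hxζ, ax.a1_cR])
  calc v = v * (w * w') := by rw [hww', mul_one]
    _ = (v * w') * w := by ring
    _ = ax.cR ζ * w := by rw [h3]

/-- the ROOT LEMMA in the literal shape consumed by `GlueNode.nodeRingsOfBAmice` (helper28, #1750) -/
theorem root_lemma_literal {ϖ : K} (hϖ : IsDiscreteNorm ϖ) (hπ : π ≠ 0) (n : ℕ) :
    ∀ g : R, IsUnit g →
      (∃ (c : K) (y : BAmice K), c ≠ 0 ∧ IsUnit y ∧ ax.a1 g = ax.a1 (ax.cR c) * y ^ n) →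
      (∃ (c : K) (y : BAmice K), c ≠ 0 ∧ IsUnit y ∧ ax.a2 g = ax.a2 (ax.cR c) * y ^ n) →
      ∃ (c : K) (r : R), g = ax.cR c * r ^ n := by
  have hnt : Nontrivial (BAmice K) := NormOneClass.nontrivial
  rintro g hg ⟨c₁, y₁, hc₁, hy₁, h₁⟩ ⟨c₂, y₂, hc₂, hy₂, h₂⟩
  obtain ⟨g', hgg'⟩ := hg.exists_right_inv
  rw [ax.a1_cR] at h₁
  rw [ax.a2_cR] at h₂
  obtain ⟨c, v, v', -, -, h⟩ := ax.root_lemma hϖ hπ hgg' n hc₁ hc₂ hy₁.ne_zero hy₂.ne_zero h₁ h₂
  exact ⟨c, v, h⟩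

end NodeAx

end Fermat.Agent.FF3.AmiceU
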