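import Mathlib
import Fermat.Agent.FF3.NodeRing.Basic
import Fermat.Agent.FF3.AmiceU.Node

/-!
# FF3 / AmiceU : the node algebra `NodeB π` satisfies the axioms `NodeAx` (§2e, part 3)

`NodeB π` (helper10, `FF3/NodeRing/Basic`) is the algebra of bounded functions on the open annulus
`‖π‖ < ‖X‖ < 1`, realised as the pairs (expansion in `X`, expansion in `Y = π / X`).  We check the
axioms `NodeAx π (NodeB π)` with `a1 = toX`, `a2 = toY`, `cR = algebraMap`, `Xp a = X ^ a`, and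
deduce for a discretely normed `K` with `π ≠ 0`, `‖π‖ < 1`:

* `nodeB_unit_structure` : **(UNIT)** the units of `NodeB π`;
* `nodeB_root_lemma`     : **ROOT LEMMA (B-ii)**, in the literal shape of the node of the gluing
                           contract: a unit `g` of `NodeB π` whose two expansions are (constant) ×
                           (`n`-th power of a unit of `BAmice K`) is (constant) × (`n`-th power);
* `nodeB_root_lemma_unit`: the same with the root a unit and the constant nonzero;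
* `nodeB_root_unique`    : two `n`-th roots differ by a constant.
-/

set_option autoImplicit false
set_option linter.unusedSectionVars false

namespace Fermat.Agent.FF3.AmiceU

open Filter Topology
open Fermat.Agent.FF3.Amice Fermat.Agent.FF3.Birkhoff Fermat.Agent.FF3.NodeRing
open scoped Classical

variable {K : Type*} [NormedField K] [IsUltrametricDist K] [CompleteSpace K] {π : K}

/-- `1 ≤ ‖π‖ ^ (-n)` for `n ≥ 0` when `‖π‖ < 1` -/
theorem one_le_norm_zpow_neg (hπ : π ≠ 0) (hπ1 : ‖π‖ < 1) {n : ℤ} (hn : 0 ≤ n) :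
    1 ≤ ‖π‖ ^ (-n) := by
  have hp : 0 < ‖π‖ := norm_pos_iff.2 hπ
  rw [zpow_neg]
  rw [one_le_inv₀ (zpow_pos hp n)]
  exact zpow_le_one₀ hp hπ1.le hn

/-- `‖π‖ ^ n ≤ ‖π‖` for `n ≥ 1` when `‖π‖ < 1` -/
theorem norm_zpow_le_self (hπ : π ≠ 0) (hπ1 : ‖π‖ < 1) {n : ℤ} (hn : 1 ≤ n) :
    ‖π‖ ^ n ≤ ‖π‖ := by
  have hp : 0 < ‖π‖ := norm_pos_iff.2 hπ
  calc ‖π‖ ^ n ≤ ‖π‖ ^ (1 : ℤ) := zpow_le_zpow_right_of_le_one₀ hp hπ1.le hn
    _ = ‖π‖ := zpow_one _

/-- the decay condition for a plus unit -/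
theorem decay_one_add_of_isPlus (hπ : π ≠ 0) (hπ1 : ‖π‖ < 1) {b : BAmice K} (hb : IsPlus b)
    (n : ℤ) : ‖BAmice.coeff n (1 + b)‖ ≤ 1 * ‖π‖ ^ (-n) := by
  have hp : 0 < ‖π‖ := norm_pos_iff.2 hπ
  rw [one_mul, coeff_one_add_of_mem_BP hb.1]
  rcases lt_trichotomy n 0 with h | h | h
  · rw [if_neg h.ne, if_neg (not_lt.2 h.le), norm_zero]
    exact zpow_nonneg hp.le _
  · rw [if_pos h, norm_one, h, neg_zero, zpow_zero]
  · rw [if_neg h.ne', if_pos h]
    exact ((BAmice.norm_coeff_le n b).trans hb.2).trans (one_le_norm_zpow_neg hπ hπ1 h.le)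

/-- the element of the node algebra whose `X`-expansion is a given plus unit -/
noncomputable def ofPlus (hπ : π ≠ 0) (hπ1 : ‖π‖ < 1) (b : BAmice K) (hb : IsPlus b) : NodeB π :=
  ofX hπ hπ1 (1 + b) 1 (decay_one_add_of_isPlus hπ hπ1 hb)

theorem toX_ofPlus (hπ : π ≠ 0) (hπ1 : ‖π‖ < 1) (b : BAmice K) (hb : IsPlus b) :
    toX (ofPlus hπ hπ1 b hb) = 1 + b := rfl

theorem coeff_toY_ofPlus (hπ : π ≠ 0) (hπ1 : ‖π‖ < 1) (b : BAmice K) (hb : IsPlus b) (m : ℤ) :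
    BAmice.coeff m (toY (ofPlus hπ hπ1 b hb))
      = if m = 0 then 1 else if m < 0 then BAmice.coeff (-m) b * π ^ (-m) else 0 := by
  rw [coeff_toY hπ, toX_ofPlus, coeff_one_add_of_mem_BP hb.1]
  rcases lt_trichotomy m 0 with h | h | h
  · rw [if_neg (by omega), if_pos (by omega), if_neg h.ne, if_pos h]
  · rw [if_pos (by omega), if_pos h, h, neg_zero, zpow_zero, mul_one]
  · rw [if_neg (by omega), if_neg (by omega), if_neg h.ne', if_neg (by omega), zero_mul]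

/-- the `Y`-expansion of `ofPlus` is a small minus unit, of distance `≤ ‖π‖` to `1` -/
theorem isMinus_toY_ofPlus_sub_one (hπ : π ≠ 0) (hπ1 : ‖π‖ < 1) (b : BAmice K) (hb : IsPlus b) :
    IsMinus (toY (ofPlus hπ hπ1 b hb) - 1) ∧ ‖toY (ofPlus hπ hπ1 b hb) - 1‖ ≤ ‖π‖ := by
  have hp : 0 < ‖π‖ := norm_pos_iff.2 hπ
  have hcoeff : ∀ m : ℤ, BAmice.coeff m (toY (ofPlus hπ hπ1 b hb) - 1)
      = if m < 0 then BAmice.coeff (-m) b * π ^ (-m) else 0 := by
    intro m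
    rw [map_sub, coeff_toY_ofPlus, coeff_one]
    rcases lt_trichotomy m 0 with h | h | h
    · rw [if_neg h.ne, if_pos h, if_neg h.ne, sub_zero]
    · rw [if_pos h, if_pos h, if_neg (by omega), sub_self]
    · rw [if_neg h.ne', if_neg (by omega), if_neg h.ne', sub_zero]
  have hle : ‖toY (ofPlus hπ hπ1 b hb) - 1‖ ≤ ‖π‖ := by
    rw [BAmice.norm_le_iff]
    intro m
    rw [hcoeff]
    split_ifs with h
    · rw [norm_mul, norm_zpow]
      calc ‖BAmice.coeff (-m) b‖ * ‖π‖ ^ (-m) ≤ 1 * ‖π‖ ^ (-m) :=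
            mul_le_mul_of_nonneg_right ((BAmice.norm_coeff_le _ b).trans hb.2)
              (zpow_nonneg hp.le _)
        _ = ‖π‖ ^ (-m) := one_mul _
        _ ≤ ‖π‖ := norm_zpow_le_self hπ hπ1 (by omega)
    · rw [norm_zero]; exact hp.le
  refine ⟨⟨mem_BM_iff.2 ?_, hle.trans_lt hπ1⟩, hle⟩
  intro m hm
  rw [hcoeff, if_neg hm]

/-- if the `X`-expansion is a minus unit, the `Y`-expansion minus `1` has positive exponents only -/
theorem suppIn_toY_sub_one (hπ : π ≠ 0) (r : NodeB π) (d : BAmice K) (hd : IsMinus d)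
    (h : toX r = 1 + d) : SuppIn (toY r - 1) (fun n => 0 < n) := by
  intro m hm
  rw [map_sub, coeff_toY hπ, h, coeff_one_add_of_mem_BM hd.1, coeff_one]
  rcases lt_or_eq_of_le (not_lt.1 hm) with h' | h'
  · rw [if_neg (by omega), if_neg (by omega), if_neg h'.ne, zero_mul, sub_zero]
  · rw [if_pos (by omega), if_pos h', h', neg_zero, zpow_zero, mul_one, sub_self]

/-- **the node algebra satisfies the axioms of the node ring** -/
noncomputable def nodeAx (hπ : π ≠ 0) (hπ1 : ‖π‖ < 1) : NodeAx π (NodeB π) where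
  a1 := (toX : NodeB π →ₐ[K] BAmice K).toRingHom
  a2 := (toY : NodeB π →ₐ[K] BAmice K).toRingHom
  a1_inj := toX_injective hπ
  a2_inj := toY_injective hπ
  cR := algebraMap K (NodeB π)
  a1_cR := fun c => (toX : NodeB π →ₐ[K] BAmice K).commutes c
  a2_cR := fun c => (toY : NodeB π →ₐ[K] BAmice K).commutes c
  Xp := fun a => monomial hπ a 1
  a1_Xp := fun a => by
    show toX (monomial hπ a 1) = _
    rw [toX_monomial, BAmice.coe_X_zpow]
  a2_Xp := fun a => by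
    show toY (monomial hπ a 1) = _
    rw [toY_monomial, BAmice.coe_X_zpow, one_mul]
    apply BAmice.ext
    intro n
    rw [coeff_algebraMap_mul, BAmice.coeff_single, BAmice.coeff_single]
    split_ifs <;> simp
  plus := fun b hb => ⟨ofPlus hπ hπ1 b hb, toX_ofPlus hπ hπ1 b hb,
    toY (ofPlus hπ hπ1 b hb) - 1, (isMinus_toY_ofPlus_sub_one hπ hπ1 b hb).1,
    (add_sub_cancel _ _).symm⟩
  minus := fun r d hd h => suppIn_toY_sub_one hπ r d hd h
  lift_plus := fun b' hb' => ⟨swap π (ofPlus hπ hπ1 b' hb'),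
    toY (ofPlus hπ hπ1 b' hb') - 1, (isMinus_toY_ofPlus_sub_one hπ hπ1 b' hb').1,
    (add_sub_cancel _ _).symm, toX_ofPlus hπ hπ1 b' hb'⟩

@[simp] theorem nodeAx_a1 (hπ : π ≠ 0) (hπ1 : ‖π‖ < 1) (g : NodeB π) :
    (nodeAx hπ hπ1).a1 g = toX g := rfl

@[simp] theorem nodeAx_a2 (hπ : π ≠ 0) (hπ1 : ‖π‖ < 1) (g : NodeB π) :
    (nodeAx hπ hπ1).a2 g = toY g := rfl

@[simp] theorem nodeAx_cR (hπ : π ≠ 0) (hπ1 : ‖π‖ < 1) (c : K) :
    (nodeAx hπ hπ1).cR c = algebraMap K (NodeB π) c := rfl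

@[simp] theorem nodeAx_Xp (hπ : π ≠ 0) (hπ1 : ‖π‖ < 1) (a : ℤ) :
    (nodeAx hπ hπ1).Xp a = monomial hπ a 1 := rfl

/-! ### the concrete statements -/

/-- **(UNIT)** for the node algebra: a unit is `c X^a (1 + b(X)) (1 + b'(Y))` with `c ≠ 0` a
constant, `b` and `b'` of norm `≤ 1` with positive exponents only. -/
theorem nodeB_unit_structure {ϖ : K} (hϖ : IsDiscreteNorm ϖ) (hπ : π ≠ 0) (hπ1 : ‖π‖ < 1)
    {f : NodeB π} (hf : IsUnit f) :
    ∃ (c : K) (a : ℤ) (b b' : BAmice K) (rb rd : NodeB π), c ≠ 0 ∧ IsPlus b ∧ IsPlus b' ∧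
      toX rb = 1 + b ∧ toY rd = 1 + b' ∧
      f = algebraMap K (NodeB π) c * monomial hπ a 1 * rb * rd := by
  obtain ⟨g, hfg⟩ := hf.exists_right_inv
  obtain ⟨c, a, b, d, b', rb, rd, hc, hb, -, hb', -, hrb, -, hrd, hf'⟩ :=
    (nodeAx hπ hπ1).unit_structure hϖ hfg
  exact ⟨c, a, b, b', rb, rd, hc, hb, hb', hrb, hrd, hf'⟩

/-- **ROOT LEMMA (B-ii)** for the node algebra, literal shape of the gluing node. -/
theorem nodeB_root_lemma {ϖ : K} (hϖ : IsDiscreteNorm ϖ) (hπ : π ≠ 0) (hπ1 : ‖π‖ < 1) (n : ℕ)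
    (g : NodeB π) (hg : IsUnit g)
    (h1 : ∃ (c : K) (y : BAmice K), c ≠ 0 ∧ IsUnit y ∧
      toX g = algebraMap K (BAmice K) c * y ^ n)
    (h2 : ∃ (c : K) (y : BAmice K), c ≠ 0 ∧ IsUnit y ∧
      toY g = algebraMap K (BAmice K) c * y ^ n) :
    ∃ (c : K) (r : NodeB π), g = algebraMap K (NodeB π) c * r ^ n := by
  refine (nodeAx hπ hπ1).root_lemma_literal hϖ hπ n g hg ?_ ?_
  · obtain ⟨c, y, hc, hy, h⟩ := h1
    exact ⟨c, y, hc, hy, by rw [nodeAx_a1, nodeAx_cR, nodeAx_a1, AlgHom.commutes]; exact h⟩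
  · obtain ⟨c, y, hc, hy, h⟩ := h2
    exact ⟨c, y, hc, hy, by rw [nodeAx_a2, nodeAx_cR, nodeAx_a2, AlgHom.commutes]; exact h⟩

/-- **ROOT LEMMA**, with the extra information: the constant is nonzero and the root is a unit. -/
theorem nodeB_root_lemma_unit {ϖ : K} (hϖ : IsDiscreteNorm ϖ) (hπ : π ≠ 0) (hπ1 : ‖π‖ < 1) (n : ℕ)
    {f : NodeB π} (hf : IsUnit f) {e₁ e₂ : K} (he₁ : e₁ ≠ 0) (he₂ : e₂ ≠ 0) {v₁ v₂ : BAmice K}
    (hv₁ : v₁ ≠ 0) (hv₂ : v₂ ≠ 0)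
    (h1 : toX f = algebraMap K (BAmice K) e₁ * v₁ ^ n)
    (h2 : toY f = algebraMap K (BAmice K) e₂ * v₂ ^ n) :
    ∃ (c : K) (v : NodeB π), c ≠ 0 ∧ IsUnit v ∧ f = algebraMap K (NodeB π) c * v ^ n := by
  obtain ⟨g, hfg⟩ := hf.exists_right_inv
  obtain ⟨c, v, v', hc, hvv', h⟩ :=
    (nodeAx hπ hπ1).root_lemma hϖ hπ hfg n he₁ he₂ hv₁ hv₂ h1 h2
  exact ⟨c, v, hc, IsUnit.of_mul_eq_one _ hvv', h⟩

/-- two `n`-th roots (up to a constant) in the node algebra differ by a constant -/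
theorem nodeB_root_unique {ϖ : K} (hϖ : IsDiscreteNorm ϖ) (hπ : π ≠ 0) (hπ1 : ‖π‖ < 1) {n : ℕ}
    (hn0 : n ≠ 0) (hn : (n : K) ≠ 0) {v w : NodeB π} (hw : IsUnit w) {c : K} (hc : c ≠ 0)
    (h : v ^ n = algebraMap K (NodeB π) c * w ^ n) :
    ∃ ζ : K, ζ ^ n = c ∧ v = algebraMap K (NodeB π) ζ * w := by
  obtain ⟨w', hww'⟩ := hw.exists_right_inv
  exact (nodeAx hπ hπ1).root_unique hϖ hn0 hn hww' hc h

end Fermat.Agent.FF3.AmiceU
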